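import Mathlib

/-!
# S05: abstract Kummer lines

`IsKummer ξ β κ` axiomatises the `x`-coordinate arithmetic of the curve
`η² = ξ (ξ² + (β/4) ξ + κ)` (an elliptic curve with a marked `2`-torsion point at `ξ = 0`):
`ξ : G → F` is an even function on a commutative group `G` with `ξ 0 = 0` (a convention for the
point at infinity), which determines a nonzero point up to sign, and satisfies the addition
formulas for `ξ(P+Q) ξ(P-Q)` and `ξ(P+Q) + ξ(P-Q)` and the duplication formula.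
-/

set_option autoImplicit false

namespace Fermat.Agent.S05Lib

/-- An abstract Kummer line with parameters `β`, `κ`. -/
structure IsKummer {G F : Type*} [AddCommGroup G] [Field F] (ξ : G → F) (β κ : F) : Prop where
  zero : ξ 0 = 0
  neg : ∀ P, ξ (-P) = ξ P
  eq_or_eq_neg : ∀ P Q, P ≠ 0 → Q ≠ 0 → ξ P = ξ Q → P = Q ∨ P = -Q
  mul : ∀ P Q, P ≠ 0 → Q ≠ 0 → ξ P ≠ ξ Q →
    ξ (P + Q) * ξ (P - Q) * (ξ P - ξ Q) ^ 2 = (ξ P * ξ Q - κ) ^ 2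
  add : ∀ P Q, P ≠ 0 → Q ≠ 0 → ξ P ≠ ξ Q →
    (ξ (P + Q) + ξ (P - Q)) * (ξ P - ξ Q) ^ 2 =
      2 * (ξ P + ξ Q) * (ξ P * ξ Q + κ) + β * (ξ P * ξ Q)
  two_nsmul_eq_zero_iff : ∀ P, P ≠ 0 →
    ((2 : ℕ) • P = 0 ↔ ξ P * (4 * ξ P ^ 2 + β * ξ P + 4 * κ) = 0)
  dbl : ∀ P, P ≠ 0 → (2 : ℕ) • P ≠ 0 →
    ξ ((2 : ℕ) • P) * (ξ P * (4 * ξ P ^ 2 + β * ξ P + 4 * κ)) = (ξ P ^ 2 - κ) ^ 2

namespace IsKummer

variable {G F : Type*} [AddCommGroup G] [Field F] {ξ : G → F} {β κ : F}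

theorem add_ne_zero (hK : IsKummer ξ β κ) {P Q : G} (h : ξ P ≠ ξ Q) : P + Q ≠ 0 := by
  intro h0
  apply h
  rw [eq_neg_of_add_eq_zero_left h0, hK.neg]

theorem sub_ne_zero (_hK : IsKummer ξ β κ) {P Q : G} (h : ξ P ≠ ξ Q) : P - Q ≠ 0 := by
  intro h0
  apply h
  rw [sub_eq_zero.1 h0]

end IsKummer

end Fermat.Agent.S05Lib
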