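import Mathlib
import Fermat.Agent.S05Lib.Defs

/-!
# The "kernel of reduction" `E₁` of an abstract Kummer line, and its torsion-freeness

For a function `ξ : G → K` on an abelian group satisfying the Kummer identities
(`IsKummer ξ β κ`) and a valuation `v` on `K` with `v 2 = 1`, `v β ≤ 1`, `v κ ≤ 1`:

* `ker` : the set `{P | P = 0 ∨ 1 < v (ξ P)}` is a subgroup of `G`;
* `eq_zero_of_mem_ker` : if `v p = 1` then `ker` has no nonzero point killed by `p`.
-/

set_option autoImplicit false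

namespace Fermat.Agent.S05Lib.E1

open Fermat.Agent.S05Lib

variable {G F Γ₀ : Type*} [AddCommGroup G] [Field F] [LinearOrderedCommGroupWithZero Γ₀]
  (v : Valuation F Γ₀) {ξ : G → F} {β κ : F}

/-- Natural numbers have valuation at most one. -/
theorem val_natCast_le_one (n : ℕ) : v (n : F) ≤ 1 := by
  induction n with
  | zero => simp
  | succ n ih =>
    rw [Nat.cast_succ]
    exact Valuation.map_add_le v ih (le_of_eq (map_one v))

theorem val_two_le_one : v (2 : F) ≤ 1 := by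
  have := val_natCast_le_one v 2
  simpa using this

theorem val_three_le_one : v (3 : F) ≤ 1 := by
  have := val_natCast_le_one v 3
  simpa using this

theorem ne_zero_of_one_lt_val {x : F} (hx : 1 < v x) : x ≠ 0 := by
  rintro rfl
  rw [map_zero] at hx
  exact not_lt_zero hx

/-- A point whose `ξ` has valuation `> 1` is nonzero. -/
theorem ne_zero_of_one_lt (hK : IsKummer ξ β κ) {P : G}
    (hP : 1 < v (ξ P)) : P ≠ 0 := by
  rintro rfl
  rw [hK.zero, map_zero] at hP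
  exact not_lt_zero hP

/-- Pure valuation algebra behind the closure of `E₁` under addition. -/
theorem one_lt_of_prod_sum {x y p m : F} (hβ : v β ≤ 1) (hκ : v κ ≤ 1)
    (hx : 1 < v x) (hy : 1 < v y)
    (hprod : p * m * (x - y) ^ 2 = (x * y - κ) ^ 2)
    (hsum : (p + m) * (x - y) ^ 2 = 2 * (x + y) * (x * y + κ) + β * (x * y)) :
    1 < v p := by
  have h2 : v (2 : F) ≤ 1 := val_two_le_one v
  have hxy : 1 < v x * v y := one_lt_mul'' hx hy
  have hxy0 : 0 < v x * v y := zero_lt_one.trans hxy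
  have hN : v (x * y - κ) = v x * v y := by
    rw [← map_mul]
    exact Valuation.map_sub_eq_of_lt_left v (by rw [map_mul]; exact lt_of_le_of_lt hκ hxy)
  have hN' : v (x * y + κ) = v x * v y := by
    rw [← map_mul]
    exact Valuation.map_add_eq_of_lt_left v (by rw [map_mul]; exact lt_of_le_of_lt hκ hxy)
  have hδ : v (x - y) ≤ max (v x) (v y) := Valuation.map_sub v x y
  have hMlt : max (v x) (v y) < v x * v y := by
    apply max_lt
    · calc v x = v x * 1 := (mul_one _).symm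
        _ < v x * v y := mul_lt_mul_of_pos_left hy (zero_lt_one.trans hx)
    · calc v y = 1 * v y := (one_mul _).symm
        _ < v x * v y := mul_lt_mul_of_pos_right hx (zero_lt_one.trans hy)
  have hM1 : 1 ≤ max (v x) (v y) := hx.le.trans (le_max_left _ _)
  have hS : v (2 * (x + y) * (x * y + κ) + β * (x * y)) ≤ max (v x) (v y) * (v x * v y) := by
    apply Valuation.map_add_le
    · rw [map_mul, map_mul, hN']
      have h3 : v (x + y) ≤ max (v x) (v y) := Valuation.map_add v x y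
      calc v 2 * v (x + y) * (v x * v y) ≤ 1 * max (v x) (v y) * (v x * v y) := by gcongr
        _ = max (v x) (v y) * (v x * v y) := by rw [one_mul]
    · rw [map_mul, map_mul]
      calc v β * (v x * v y) ≤ 1 * (v x * v y) := by gcongr
        _ ≤ max (v x) (v y) * (v x * v y) := by gcongr
  have hS' : v (2 * (x + y) * (x * y + κ) + β * (x * y)) < (v x * v y) ^ 2 := by
    rw [sq]
    exact lt_of_le_of_lt hS (mul_lt_mul_of_pos_right hMlt hxy0)
  have hprodv : v p * v m * v (x - y) ^ 2 = (v x * v y) ^ 2 := by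
    have := congrArg v hprod
    rw [map_mul, map_mul, map_pow, map_pow, hN] at this
    exact this
  have hsumv : v (p + m) * v (x - y) ^ 2 = v (2 * (x + y) * (x * y + κ) + β * (x * y)) := by
    have := congrArg v hsum
    rw [map_mul, map_pow] at this
    exact this
  by_contra hp
  rw [not_lt] at hp
  have hpm : 1 < v p * v m := by
    have h1 : v (x - y) ^ 2 < (v x * v y) ^ 2 :=
      pow_lt_pow_left₀ (lt_of_le_of_lt hδ hMlt) zero_le (by norm_num)
    rw [← hprodv] at h1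
    have h2 : 1 * v (x - y) ^ 2 < v p * v m * v (x - y) ^ 2 := by rwa [one_mul]
    exact lt_of_mul_lt_mul_right' h2
  have hm : 1 < v m := by
    by_contra hm
    rw [not_lt] at hm
    exact absurd hpm (not_lt.mpr (mul_le_one' hp hm))
  have hpm2 : v (p + m) = v m := Valuation.map_add_eq_of_lt_right v (lt_of_le_of_lt hp hm)
  have : (v x * v y) ^ 2 ≤ v (2 * (x + y) * (x * y + κ) + β * (x * y)) := by
    rw [← hsumv, hpm2, ← hprodv]
    gcongr
    exact mul_le_of_le_one_left' hp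
  exact absurd hS' (not_lt.mpr this)

/-- Closure of `E₁` under addition, generic case. -/
theorem one_lt_add_of_ne (hK : IsKummer ξ β κ) (hβ : v β ≤ 1)
    (hκ : v κ ≤ 1) {P Q : G} (hP : 1 < v (ξ P)) (hQ : 1 < v (ξ Q)) (hne : ξ P ≠ ξ Q) :
    1 < v (ξ (P + Q)) :=
  one_lt_of_prod_sum v hβ hκ hP hQ
    (hK.mul P Q (ne_zero_of_one_lt v hK hP) (ne_zero_of_one_lt v hK hQ) hne)
    (hK.add P Q (ne_zero_of_one_lt v hK hP) (ne_zero_of_one_lt v hK hQ) hne)

/-- Valuations of the two polynomial expressions of the duplication formula on `E₁`. -/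
theorem val_dbl_aux (h2 : v 2 = 1) (hβ : v β ≤ 1) (hκ : v κ ≤ 1) {x : F}
    (hx : 1 < v x) :
    v (4 * x ^ 2 + β * x + 4 * κ) = v x ^ 2 ∧ v (x ^ 2 - κ) = v x ^ 2 := by
  have h4 : v (4 : F) = 1 := by
    have : (4 : F) = 2 * 2 := by norm_num
    rw [this, map_mul, h2, one_mul]
  have hx0 : 0 < v x := zero_lt_one.trans hx
  have hxx : v x < v x * v x := by
    calc v x = 1 * v x := (one_mul _).symm
      _ < v x * v x := mul_lt_mul_of_pos_right hx hx0
  have hx2 : 1 < v x ^ 2 := by rw [sq]; exact hx.trans hxx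
  have h1 : v (4 * x ^ 2) = v x ^ 2 := by rw [map_mul, h4, one_mul, map_pow]
  have h2' : v (β * x) < v x ^ 2 := by
    rw [map_mul, sq]
    calc v β * v x ≤ 1 * v x := by gcongr
      _ = v x := one_mul _
      _ < v x * v x := hxx
  have h3 : v (4 * κ) < v x ^ 2 := by
    rw [map_mul, h4, one_mul]; exact lt_of_le_of_lt hκ hx2
  refine ⟨?_, ?_⟩
  · rw [add_assoc, Valuation.map_add_eq_of_lt_left v, h1]
    rw [h1]; exact Valuation.map_add_lt v h2' h3
  · rw [← map_pow]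
    exact Valuation.map_sub_eq_of_lt_left v (by rw [map_pow]; exact lt_of_le_of_lt hκ hx2)

/-- Duplication on `E₁`: `2P ≠ 0` and `v (ξ (2P)) = v (ξ P)`. -/
theorem two_nsmul_of_one_lt (hK : IsKummer ξ β κ) (h2 : v 2 = 1)
    (hβ : v β ≤ 1) (hκ : v κ ≤ 1) {P : G} (hP : 1 < v (ξ P)) :
    (2 : ℕ) • P ≠ 0 ∧ v (ξ ((2 : ℕ) • P)) = v (ξ P) := by
  have hP0 := ne_zero_of_one_lt v hK hP
  obtain ⟨hquad, hnum⟩ := val_dbl_aux (β := β) (κ := κ) v h2 hβ hκ hP
  have hx0 : v (ξ P) ≠ 0 := (zero_lt_one.trans hP).ne'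
  have h2P : (2 : ℕ) • P ≠ 0 := by
    rw [Ne, hK.two_nsmul_eq_zero_iff P hP0]
    intro h
    have := congrArg v h
    rw [map_mul, hquad, map_zero] at this
    exact (mul_ne_zero hx0 (pow_ne_zero 2 hx0)) this
  refine ⟨h2P, ?_⟩
  have hd := congrArg v (hK.dbl P hP0 h2P)
  rw [map_mul, map_mul, hquad, map_pow, hnum] at hd
  have : v (ξ ((2 : ℕ) • P)) * (v (ξ P) * v (ξ P) ^ 2) = v (ξ P) * (v (ξ P) * v (ξ P) ^ 2) := by
    rw [hd]; simp only [sq]; ac_rfl
  exact mul_right_cancel₀ (mul_ne_zero hx0 (pow_ne_zero 2 hx0)) this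

/-- **(E1)** The points with `1 < v (ξ P)`, together with `0`, form a subgroup. -/
def ker (hK : IsKummer ξ β κ) (h2 : v 2 = 1) (hβ : v β ≤ 1) (hκ : v κ ≤ 1) : AddSubgroup G where
  carrier := {P | P = 0 ∨ 1 < v (ξ P)}
  zero_mem' := Or.inl rfl
  add_mem' := by
    rintro P Q (rfl | hP) (rfl | hQ)
    · left; simp
    · right; simpa using hQ
    · right; simpa using hP
    · by_cases hne : ξ P = ξ Q
      · rcases hK.eq_or_eq_neg P Q (ne_zero_of_one_lt v hK hP) (ne_zero_of_one_lt v hK hQ) hne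
          with rfl | rfl
        · right
          rw [← two_nsmul, (two_nsmul_of_one_lt v hK h2 hβ hκ hP).2]
          exact hP
        · left; simp
      · right; exact one_lt_add_of_ne v hK hβ hκ hP hQ hne
  neg_mem' := by
    rintro P (rfl | hP)
    · left; simp
    · right
      show 1 < v (ξ (-P))
      rw [hK.neg]; exact hP

theorem mem_ker (hK : IsKummer ξ β κ) (h2 : v 2 = 1) (hβ : v β ≤ 1)
    (hκ : v κ ≤ 1) {P : G} : P ∈ ker v hK h2 hβ hκ ↔ P = 0 ∨ 1 < v (ξ P) := Iff.rfl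

/-! ### The `ζ = ξ⁻¹` sum formula on `E₁` -/

/-- Duplication formula for `ζ = ξ⁻¹` on `E₁`. -/
theorem zeta_dbl (hK : IsKummer ξ β κ) (h2 : v 2 = 1) (hβ : v β ≤ 1)
    (hκ : v κ ≤ 1) {P : G} (hP : 1 < v (ξ P)) :
    (ξ ((2 : ℕ) • P))⁻¹
      = (2 * ((ξ P)⁻¹ + (ξ P)⁻¹) * (1 + κ * (ξ P)⁻¹ * (ξ P)⁻¹) + β * (ξ P)⁻¹ * (ξ P)⁻¹)
        / (1 - κ * (ξ P)⁻¹ * (ξ P)⁻¹) ^ 2 := by
  have hP0 := ne_zero_of_one_lt v hK hP
  obtain ⟨h2P, hv2P⟩ := two_nsmul_of_one_lt v hK h2 hβ hκ hP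
  obtain ⟨-, hnum⟩ := val_dbl_aux (β := β) (κ := κ) v h2 hβ hκ hP
  have hd := hK.dbl P hP0 h2P
  have hx : ξ P ≠ 0 := ne_zero_of_one_lt_val v hP
  have hd0 : ξ ((2 : ℕ) • P) ≠ 0 := ne_zero_of_one_lt_val v (hv2P ▸ hP)
  have hN : ξ P ^ 2 - κ ≠ 0 := by
    intro h
    rw [h, map_zero] at hnum
    exact (pow_ne_zero 2 (zero_lt_one.trans hP).ne') hnum.symm
  generalize ξ ((2 : ℕ) • P) = d at *
  generalize ξ P = x at *
  have e1 : 1 - κ * x⁻¹ * x⁻¹ = (x ^ 2 - κ) / x ^ 2 := by field_simp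
  have e2 : 2 * (x⁻¹ + x⁻¹) * (1 + κ * x⁻¹ * x⁻¹) + β * x⁻¹ * x⁻¹
      = (x * (4 * x ^ 2 + β * x + 4 * κ)) / x ^ 4 := by
    field_simp; ring
  rw [e1, e2]
  field_simp
  linear_combination (-1 : F) * hd

/-- **The `ζ`-sum formula** on `E₁`, valid for all pairs of points of `E₁` (including the
degenerate cases `P = 0`, `Q = 0`, `P = ± Q`), with the convention `ζ 0 = 0`. -/
theorem zeta_sum (hK : IsKummer ξ β κ) (h2 : v 2 = 1) (hβ : v β ≤ 1)
    (hκ : v κ ≤ 1) {P Q : G} (hP : P ∈ ker v hK h2 hβ hκ) (hQ : Q ∈ ker v hK h2 hβ hκ) :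
    (ξ (P + Q))⁻¹ + (ξ (P - Q))⁻¹
      = (2 * ((ξ P)⁻¹ + (ξ Q)⁻¹) * (1 + κ * (ξ P)⁻¹ * (ξ Q)⁻¹) + β * (ξ P)⁻¹ * (ξ Q)⁻¹)
        / (1 - κ * (ξ P)⁻¹ * (ξ Q)⁻¹) ^ 2 := by
  rcases hP with rfl | hP
  · simp only [zero_add, zero_sub, hK.neg, hK.zero, inv_zero, mul_zero, zero_mul, add_zero,
      sub_zero, one_pow, div_one, mul_one]
    ring
  rcases hQ with rfl | hQ
  · simp only [add_zero, sub_zero, hK.zero, inv_zero, mul_zero, add_zero,
      sub_zero, one_pow, div_one, mul_one]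
    ring
  by_cases hne : ξ P = ξ Q
  · rcases hK.eq_or_eq_neg P Q (ne_zero_of_one_lt v hK hP) (ne_zero_of_one_lt v hK hQ) hne
      with rfl | rfl
    · rw [sub_self, hK.zero, inv_zero, add_zero, ← two_nsmul]
      exact zeta_dbl v hK h2 hβ hκ hP
    · rw [neg_add_cancel, hK.zero, inv_zero, zero_add, ← neg_add', hK.neg, hK.neg, ← two_nsmul]
      exact zeta_dbl v hK h2 hβ hκ hQ
  · have hP0 := ne_zero_of_one_lt v hK hP
    have hQ0 := ne_zero_of_one_lt v hK hQ
    have hprod := hK.mul P Q hP0 hQ0 hne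
    have hsum := hK.add P Q hP0 hQ0 hne
    have hx : ξ P ≠ 0 := ne_zero_of_one_lt_val v hP
    have hy : ξ Q ≠ 0 := ne_zero_of_one_lt_val v hQ
    have hN : ξ P * ξ Q - κ ≠ 0 := by
      intro h
      have hxy : 1 < v (ξ P * ξ Q) := by rw [map_mul]; exact one_lt_mul'' hP hQ
      have := Valuation.map_sub_eq_of_lt_left v (lt_of_le_of_lt hκ hxy)
      rw [h, map_zero] at this
      rw [← this] at hxy
      exact not_lt_zero hxy
    have hpm : ξ (P + Q) * ξ (P - Q) ≠ 0 := by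
      intro h
      rw [h, zero_mul] at hprod
      exact hN ((pow_eq_zero_iff (two_ne_zero)).mp hprod.symm)
    have hp : ξ (P + Q) ≠ 0 := left_ne_zero_of_mul hpm
    have hm : ξ (P - Q) ≠ 0 := right_ne_zero_of_mul hpm
    generalize ξ (P + Q) = p at *
    generalize ξ (P - Q) = m at *
    generalize ξ P = x at *
    generalize ξ Q = y at *
    have e1 : 1 - κ * x⁻¹ * y⁻¹ = (x * y - κ) / (x * y) := by field_simp
    have e2 : 2 * (x⁻¹ + y⁻¹) * (1 + κ * x⁻¹ * y⁻¹) + β * x⁻¹ * y⁻¹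
        = (2 * (x + y) * (x * y + κ) + β * x * y) / (x * y) ^ 2 := by
      field_simp; ring
    rw [e1, e2]
    field_simp
    linear_combination (-(p + m)) * hprod + p * m * hsum

/-! ### Torsion-freeness of `E₁` -/

/-- On `E₁`, `ζ (k P) ≡ k² ζ P` modulo terms of valuation `≤ v (ζ P) ^ 2`. -/
theorem val_zeta_nsmul (hK : IsKummer ξ β κ) (h2 : v 2 = 1) (hβ : v β ≤ 1)
    (hκ : v κ ≤ 1) {P : G} (hP : 1 < v (ξ P)) (k : ℕ) :
    v ((ξ (k • P))⁻¹ - (k : F) ^ 2 * (ξ P)⁻¹) ≤ v ((ξ P)⁻¹) ^ 2 := by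
  have hPE : P ∈ ker v hK h2 hβ hκ := Or.inr hP
  set z : F := (ξ P)⁻¹ with hz
  have hvz : v z < 1 := by
    rw [hz, map_inv₀]; exact inv_lt_one_of_one_lt₀ hP
  have hvz2 : v z ^ 2 ≤ v z := by
    rw [sq]; exact mul_le_of_le_one_left' hvz.le
  suffices H : ∀ k : ℕ, v ((ξ (k • P))⁻¹ - (k : F) ^ 2 * z) ≤ v z ^ 2 ∧
      v ((ξ ((k + 1) • P))⁻¹ - ((k + 1 : ℕ) : F) ^ 2 * z) ≤ v z ^ 2 from (H k).1
  intro k
  induction k with
  | zero =>
    refine ⟨?_, ?_⟩
    · simp [hK.zero]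
    · simp [hz]
  | succ k ih =>
    refine ⟨ih.2, ?_⟩
    obtain ⟨ih0, ih1⟩ := ih
    have hkP : (k + 1) • P ∈ ker v hK h2 hβ hκ := AddSubgroup.nsmul_mem _ hPE _
    have hsum := zeta_sum v hK h2 hβ hκ hkP hPE
    have e1 : (k + 1) • P + P = (k + 1 + 1) • P := (succ_nsmul P (k + 1)).symm
    have e2 : (k + 1) • P - P = k • P := by rw [succ_nsmul, add_sub_cancel_right]
    rw [e1, e2, ← hz] at hsum
    set w : F := (ξ ((k + 1) • P))⁻¹ with hw
    set u : F := (ξ (k • P))⁻¹ with hu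
    set t : F := (ξ ((k + 1 + 1) • P))⁻¹ with ht
    -- valuations
    have hvw : v w ≤ v z := by
      have : w = (w - ((k + 1 : ℕ) : F) ^ 2 * z) + ((k + 1 : ℕ) : F) ^ 2 * z := by ring
      rw [this]
      apply Valuation.map_add_le v (ih1.trans hvz2)
      rw [map_mul, map_pow]
      calc v ((k + 1 : ℕ) : F) ^ 2 * v z ≤ 1 ^ 2 * v z := by
            gcongr; exact val_natCast_le_one v _
        _ = v z := by rw [one_pow, one_mul]
    set c : F := κ * w * z with hc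
    have hvc : v c ≤ v z ^ 2 := by
      rw [hc, map_mul, map_mul, sq]
      calc v κ * v w * v z ≤ 1 * v z * v z := by gcongr
        _ = v z * v z := by rw [one_mul]
    have hvc1 : v c < 1 := lt_of_le_of_lt (hvc.trans hvz2) hvz
    have h1c : v (1 - c) = 1 := Valuation.map_one_sub_of_lt v hvc1
    have h1c0 : 1 - c ≠ 0 := by
      intro h; rw [h, map_zero] at h1c; exact zero_ne_one h1c
    -- the main estimate
    have hmain : t + u - 2 * w - 2 * z
        = (c * (2 * (w + z) * (3 - c)) + β * w * z) / (1 - c) ^ 2 := by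
      rw [hsum]
      field_simp
      ring
    have hvmain : v (t + u - 2 * w - 2 * z) ≤ v z ^ 2 := by
      rw [hmain, map_div₀, map_pow, h1c, one_pow, div_one]
      apply Valuation.map_add_le v
      · rw [map_mul]
        have h3 : v (2 * (w + z) * (3 - c)) ≤ 1 := by
          rw [map_mul, map_mul]
          have ha : v (w + z) ≤ 1 := Valuation.map_add_le v (hvw.trans hvz.le) hvz.le
          have hb : v (3 - c) ≤ 1 := Valuation.map_sub_le v (val_three_le_one v) hvc1.le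
          calc v 2 * v (w + z) * v (3 - c) ≤ 1 * 1 * 1 := by gcongr; exact h2.le
            _ = 1 := by rw [one_mul, one_mul]
        calc v c * v (2 * (w + z) * (3 - c)) ≤ v z ^ 2 * 1 := by gcongr
          _ = v z ^ 2 := mul_one _
      · rw [map_mul, map_mul, sq]
        calc v β * v w * v z ≤ 1 * v z * v z := by gcongr
          _ = v z * v z := by rw [one_mul]
    have hfin : t - ((k + 1 + 1 : ℕ) : F) ^ 2 * z
        = (t + u - 2 * w - 2 * z) + 2 * (w - ((k + 1 : ℕ) : F) ^ 2 * z)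
          - (u - (k : F) ^ 2 * z) := by
      push_cast; ring
    rw [hfin]
    apply Valuation.map_sub_le v
    · apply Valuation.map_add_le v hvmain
      rw [map_mul]
      calc v 2 * v (w - ((k + 1 : ℕ) : F) ^ 2 * z) ≤ 1 * v z ^ 2 := by gcongr; exact h2.le
        _ = v z ^ 2 := one_mul _
    · exact ih0

/-- **(E1tf)** If `v p = 1`, the subgroup `E₁` has no nonzero point killed by `p`. -/
theorem eq_zero_of_mem_ker (hK : IsKummer ξ β κ) (h2 : v 2 = 1) (hβ : v β ≤ 1) (hκ : v κ ≤ 1)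
    {p : ℕ} (hp : v (p : F) = 1) {P : G} (hP : P ∈ ker v hK h2 hβ hκ) (hpP : p • P = 0) :
    P = 0 := by
  rcases hP with rfl | hP
  · rfl
  · exfalso
    have h := val_zeta_nsmul v hK h2 hβ hκ hP p
    rw [hpP, hK.zero, inv_zero, zero_sub, Valuation.map_neg, map_mul, map_pow, hp, one_pow,
      one_mul] at h
    have hz0 : v ((ξ P)⁻¹) ≠ 0 := by
      rw [Ne, map_eq_zero, inv_eq_zero]
      exact ne_zero_of_one_lt_val v hP
    have hvz : v ((ξ P)⁻¹) < 1 := by
      rw [map_inv₀]; exact inv_lt_one_of_one_lt₀ hP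
    have : v ((ξ P)⁻¹) ^ 2 < v ((ξ P)⁻¹) := by
      calc v ((ξ P)⁻¹) ^ 2 = v ((ξ P)⁻¹) * v ((ξ P)⁻¹) := sq _
        _ < v ((ξ P)⁻¹) * 1 := mul_lt_mul_of_pos_left hvz (zero_lt_iff.mpr hz0)
        _ = v ((ξ P)⁻¹) := mul_one _
    exact absurd h (not_le.mpr this)

end Fermat.Agent.S05Lib.E1
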