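import Mathlib
import Fermat.Agent.S05Lib.Defs
import Fermat.Agent.S51Lib.Pts

/-!
# S05: the Kummer line of a Weierstrass curve with a marked `2`-torsion abscissa

For a Weierstrass curve `V` over a field `F` of characteristic `≠ 2` and `e : F` with
`B6 V e = 0` (the abscissa of a `2`-torsion point), the function `ξ(P) = x(P) - e`, `ξ(0) = 0`,
is a Kummer line with parameters `β = B2 V e`, `κ = B4 V e / 2`.
-/

set_option autoImplicit false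

namespace Fermat.Agent.S05Lib.Kummer

open WeierstrassCurve Fermat.Agent.S51Lib.Pts Fermat.Agent.S05Lib

/-- pure algebra: the Kummer identities in `u`-coordinates (`u = 2y + a₁x + a₃`) -/
theorem kummer_algebra {F : Type*} [Field F] (h2 : (2 : F) ≠ 0) (ξ₁ ξ₂ u₁ u₂ β κ T₁ T₂ : F)
    (hd : ξ₁ ≠ ξ₂)
    (hu₁ : u₁ ^ 2 = 4 * ξ₁ ^ 3 + β * ξ₁ ^ 2 + 4 * κ * ξ₁)
    (hu₂ : u₂ ^ 2 = 4 * ξ₂ ^ 3 + β * ξ₂ ^ 2 + 4 * κ * ξ₂)
    (hT₁ : 4 * (ξ₁ - ξ₂) ^ 2 * T₁ = (u₁ - u₂) ^ 2 - (β + 4 * ξ₁ + 4 * ξ₂) * (ξ₁ - ξ₂) ^ 2)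
    (hT₂ : 4 * (ξ₁ - ξ₂) ^ 2 * T₂ = (u₁ + u₂) ^ 2 - (β + 4 * ξ₁ + 4 * ξ₂) * (ξ₁ - ξ₂) ^ 2) :
    T₁ * T₂ * (ξ₁ - ξ₂) ^ 2 = (ξ₁ * ξ₂ - κ) ^ 2 ∧
      (T₁ + T₂) * (ξ₁ - ξ₂) ^ 2 = 2 * (ξ₁ + ξ₂) * (ξ₁ * ξ₂ + κ) + β * (ξ₁ * ξ₂) := by
  have hd' : ξ₁ - ξ₂ ≠ 0 := sub_ne_zero.2 hd
  have h4 : (4 : F) ≠ 0 := by
    have : (4 : F) = 2 * 2 := by norm_num
    rw [this]; exact mul_ne_zero h2 h2
  have h16 : (16 : F) * (ξ₁ - ξ₂) ^ 2 ≠ 0 := by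
    have : (16 : F) = 4 * 4 := by norm_num
    rw [this]; exact mul_ne_zero (mul_ne_zero h4 h4) (pow_ne_zero 2 hd')
  constructor
  · have key : 16 * (ξ₁ - ξ₂) ^ 2 * (T₁ * T₂ * (ξ₁ - ξ₂) ^ 2 - (ξ₁ * ξ₂ - κ) ^ 2) = 0 := by
      linear_combination (4 * (ξ₁ - ξ₂) ^ 2 * T₂) * hT₁
        + ((u₁ - u₂) ^ 2 - (β + 4 * ξ₁ + 4 * ξ₂) * (ξ₁ - ξ₂) ^ 2) * hT₂
        + ((u₁ ^ 2 - u₂ ^ 2 + (4 * ξ₁ ^ 3 + β * ξ₁ ^ 2 + 4 * κ * ξ₁)
            - (4 * ξ₂ ^ 3 + β * ξ₂ ^ 2 + 4 * κ * ξ₂))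
            - 2 * (β + 4 * ξ₁ + 4 * ξ₂) * (ξ₁ - ξ₂) ^ 2) * hu₁
        + (-(u₁ ^ 2 - u₂ ^ 2 + (4 * ξ₁ ^ 3 + β * ξ₁ ^ 2 + 4 * κ * ξ₁)
            - (4 * ξ₂ ^ 3 + β * ξ₂ ^ 2 + 4 * κ * ξ₂))
            - 2 * (β + 4 * ξ₁ + 4 * ξ₂) * (ξ₁ - ξ₂) ^ 2) * hu₂
    exact sub_eq_zero.1 ((mul_eq_zero.1 key).resolve_left h16)
  · have key : 4 * ((T₁ + T₂) * (ξ₁ - ξ₂) ^ 2
        - (2 * (ξ₁ + ξ₂) * (ξ₁ * ξ₂ + κ) + β * (ξ₁ * ξ₂))) = 0 := by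
      linear_combination hT₁ + hT₂ + 2 * hu₁ + 2 * hu₂
    exact sub_eq_zero.1 ((mul_eq_zero.1 key).resolve_left h4)

variable {F : Type*} [Field F] (V : WeierstrassCurve F)

/-- `ξ(P) = x(P) - e`, with the convention `ξ(0) = 0` -/
def xi (e : F) : V.toAffine.Point → F
  | .zero => 0
  | .some x _ _ => x - e

@[simp] theorem xi_zero (e : F) : xi V e 0 = 0 := rfl

@[simp] theorem xi_some (e : F) {x y : F} (h : V.toAffine.Nonsingular x y) :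
    xi V e (Affine.Point.some x y h) = x - e := rfl

/-- `B6` in the translated coordinate -/
theorem B6_eq (e β κ : F) (h6 : B6 V e = 0) (hβ : B2 V e = β) (hκ : B4 V e = 2 * κ) (x : F) :
    B6 V x = (x - e) * (4 * (x - e) ^ 2 + β * (x - e) + 4 * κ) := by
  have h := B6_add V e (x - e)
  rw [h6, hβ, hκ] at h
  have hx : e + (x - e) = x := by ring
  rw [hx] at h
  rw [h]; ring

/-- `B8` in the translated coordinate -/
theorem B8_eq (h2 : (2 : F) ≠ 0) (e β κ : F) (h6 : B6 V e = 0) (hβ : B2 V e = β)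
    (hκ : B4 V e = 2 * κ) (x : F) :
    B8 V x = 3 * (x - e) ^ 4 + β * (x - e) ^ 3 + 6 * κ * (x - e) ^ 2 - κ ^ 2 := by
  have h4 : (4 : F) ≠ 0 := by
    have : (4 : F) = 2 * 2 := by norm_num
    rw [this]; exact mul_ne_zero h2 h2
  have hrel := B_rel V e
  rw [h6, hβ, hκ] at hrel
  have h8 : B8 V e = -κ ^ 2 := by
    have : 4 * (B8 V e + κ ^ 2) = 0 := by linear_combination hrel
    have := (mul_eq_zero.1 this).resolve_left h4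
    linear_combination this
  have h := B8_add V e (x - e)
  rw [h6, hβ, hκ, h8] at h
  have hx : e + (x - e) = x := by ring
  rw [hx] at h
  rw [h]; ring

variable [DecidableEq F]

/-- **the Kummer line of a Weierstrass curve** at a `2`-torsion abscissa `e` -/
theorem isKummer_xi (h2 : (2 : F) ≠ 0) (e β κ : F) (h6 : B6 V e = 0) (hβ : B2 V e = β)
    (hκ : B4 V e = 2 * κ) : IsKummer (xi V e) β κ := by
  have hB2 : V.b₂ + 12 * e = β := hβ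
  -- the main computation: both addition formulas
  have main : ∀ {x₁ y₁ x₂ y₂ : F} (h₁ : V.toAffine.Nonsingular x₁ y₁)
      (h₂ : V.toAffine.Nonsingular x₂ y₂), x₁ - e ≠ x₂ - e →
      xi V e (Affine.Point.some x₁ y₁ h₁ + Affine.Point.some x₂ y₂ h₂) *
          xi V e (Affine.Point.some x₁ y₁ h₁ - Affine.Point.some x₂ y₂ h₂) *
          ((x₁ - e) - (x₂ - e)) ^ 2 = ((x₁ - e) * (x₂ - e) - κ) ^ 2 ∧
        (xi V e (Affine.Point.some x₁ y₁ h₁ + Affine.Point.some x₂ y₂ h₂) +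
          xi V e (Affine.Point.some x₁ y₁ h₁ - Affine.Point.some x₂ y₂ h₂)) *
          ((x₁ - e) - (x₂ - e)) ^ 2 =
          2 * ((x₁ - e) + (x₂ - e)) * ((x₁ - e) * (x₂ - e) + κ) + β * ((x₁ - e) * (x₂ - e)) := by
    intro x₁ y₁ x₂ y₂ h₁ h₂ hne
    have hx : x₁ ≠ x₂ := fun h => hne (by rw [h])
    have hx' : x₁ - x₂ ≠ 0 := sub_ne_zero.2 hx
    rw [sub_eq_add_neg (Affine.Point.some x₁ y₁ h₁), Affine.Point.neg_some,
      Affine.Point.add_of_X_ne hx, Affine.Point.add_of_X_ne hx, xi_some, xi_some,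
      Affine.slope_of_X_ne hx, Affine.slope_of_X_ne hx]
    have hu₁ : (y₁ - V.toAffine.negY x₁ y₁) ^ 2
        = 4 * (x₁ - e) ^ 3 + β * (x₁ - e) ^ 2 + 4 * κ * (x₁ - e) := by
      rw [← B6_eq_sq V h₁.1, B6_eq V e β κ h6 hβ hκ]; ring
    have hu₂ : (y₂ - V.toAffine.negY x₂ y₂) ^ 2
        = 4 * (x₂ - e) ^ 3 + β * (x₂ - e) ^ 2 + 4 * κ * (x₂ - e) := by
      rw [← B6_eq_sq V h₂.1, B6_eq V e β κ h6 hβ hκ]; ring
    refine kummer_algebra h2 (x₁ - e) (x₂ - e) (y₁ - V.toAffine.negY x₁ y₁)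
      (y₂ - V.toAffine.negY x₂ y₂) β κ _ _ hne hu₁ hu₂ ?_ ?_
    · simp only [Affine.addX, Affine.negY]
      rw [← hB2]
      simp only [WeierstrassCurve.b₂]
      field_simp
      ring
    · simp only [Affine.addX, Affine.negY]
      rw [← hB2]
      simp only [WeierstrassCurve.b₂]
      field_simp
      ring
  refine ⟨rfl, ?_, ?_, ?_, ?_, ?_, ?_⟩
  · rintro (_ | ⟨x, y, h⟩)
    · rfl
    · rfl
  · rintro (_ | ⟨x₁, y₁, h₁⟩) (_ | ⟨x₂, y₂, h₂⟩) hP hQ hξ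
    · exact absurd rfl hP
    · exact absurd rfl hP
    · exact absurd rfl hQ
    · have hx : x₁ = x₂ := by
        simp only [xi] at hξ
        linear_combination hξ
      exact Affine.Point.X_eq_iff.1 hx
  · rintro (_ | ⟨x₁, y₁, h₁⟩) (_ | ⟨x₂, y₂, h₂⟩) hP hQ hξ
    · exact absurd rfl hP
    · exact absurd rfl hP
    · exact absurd rfl hQ
    · exact (main h₁ h₂ hξ).1
  · rintro (_ | ⟨x₁, y₁, h₁⟩) (_ | ⟨x₂, y₂, h₂⟩) hP hQ hξ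
    · exact absurd rfl hP
    · exact absurd rfl hP
    · exact absurd rfl hQ
    · exact (main h₁ h₂ hξ).2
  · rintro (_ | ⟨x, y, h⟩) hP
    · exact absurd rfl hP
    · rw [two_nsmul_some_eq_zero_iff V h, B6_eq V e β κ h6 hβ hκ]
      rfl
  · rintro (_ | ⟨x, y, h⟩) hP h2P
    · exact absurd rfl hP
    · have hb6 : B6 V x ≠ 0 := fun h0 => h2P ((two_nsmul_some_eq_zero_iff V h).2 h0)
      obtain ⟨y', h', e2⟩ := two_nsmul_some V h hb6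
      rw [e2, xi_some, xi_some]
      have e6 := B6_eq V e β κ h6 hβ hκ x
      have e8 := B8_eq V h2 e β κ h6 hβ hκ x
      rw [← e6]
      have : (x - B8 V x / B6 V x - e) * B6 V x = (x - e) * B6 V x - B8 V x := by
        field_simp
        ring
      rw [this, e8, e6]
      ring

end Fermat.Agent.S05Lib.Kummer
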