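import Mathlib
import Fermat.Prelude.Def_FLTPrelim_Ramification
import Fermat.Agent.S05Lib.Defs
import Fermat.Agent.S05Lib.Kummer

/-!
# S05: inertia, integrality, and the two Galois lemmas

* `valuation_intCast_eq_one`: integers prime to a nonunit are units of a valuation ring;
* `mem_of_mem_inertia`, `sub_mem_nonunits_of_mem_inertia`: the inertia group preserves the
  valuation ring and acts trivially on the residue field;
* `smul_sub_mem` (C1): for a point `D` with integral abscissa, `σ D - D` lies in the kernel of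
  reduction (under the hypothesis `H` excluding a singular reduction);
* `smul_eq_self` (FIX): a point with `σ`-fixed abscissa close to the node is fixed by `σ`.
-/

set_option autoImplicit false

namespace Fermat.Agent.S05Lib.Inertia

open WeierstrassCurve Fermat.Agent.S51Lib.Pts Fermat.Agent.S05Lib

section General

variable {L : Type*} [Field L] (A : ValuationSubring L)

/-- an integer prime to an element of the maximal ideal is a unit -/
theorem valuation_intCast_eq_one {q : ℕ} (hq : (q : L) ∈ A.nonunits) {n : ℤ}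
    (hn : IsCoprime n (q : ℤ)) : A.valuation (n : L) = 1 := by
  have hle : A.valuation (n : L) ≤ 1 := (A.valuation_le_one_iff _).2 (intCast_mem A n)
  rcases lt_or_eq_of_le hle with hlt | heq
  · exfalso
    obtain ⟨u, w, huw⟩ := hn
    have h1 : (u : L) * (n : L) + (w : L) * (q : L) = 1 := by exact_mod_cast congrArg (Int.cast : ℤ → L) huw
    have hu : A.valuation (u : L) ≤ 1 := (A.valuation_le_one_iff _).2 (intCast_mem A u)
    have hw : A.valuation (w : L) ≤ 1 := (A.valuation_le_one_iff _).2 (intCast_mem A w)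
    have hq' : A.valuation (q : L) < 1 := A.mem_nonunits_iff.1 hq
    have h2 : A.valuation ((u : L) * (n : L)) < 1 := by
      rw [map_mul]
      exact mul_lt_one_of_nonneg_of_lt_one_right hu zero_le hlt
    have h3 : A.valuation ((w : L) * (q : L)) < 1 := by
      rw [map_mul]
      exact mul_lt_one_of_nonneg_of_lt_one_right hw zero_le hq'
    have h4 : A.valuation ((u : L) * (n : L) + (w : L) * (q : L)) < 1 :=
      Valuation.map_add_lt _ h2 h3
    rw [h1, map_one] at h4
    exact lt_irrefl _ h4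
  · exact heq

variable {K : Type*} [Field K] [Algebra K L]

/-- elements of the inertia group preserve the valuation ring -/
theorem mem_of_mem_inertia {σ : L ≃ₐ[K] L} (hσ : σ ∈ A.inertiaSubgroupIn K) {x : L} (hx : x ∈ A) :
    σ x ∈ A := by
  obtain ⟨τ, -, rfl⟩ := Subgroup.mem_map.1 hσ
  exact (A.subMulAction K).smul_mem' τ hx

/-- elements of the inertia group act trivially on the residue field -/
theorem sub_mem_nonunits_of_mem_inertia {σ : L ≃ₐ[K] L} (hσ : σ ∈ A.inertiaSubgroupIn K) {x : L}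
    (hx : x ∈ A) : A.valuation (σ x - x) < 1 := by
  obtain ⟨τ, hτ, rfl⟩ := Subgroup.mem_map.1 hσ
  have h1 : MulSemiringAction.toRingAut (A.decompositionSubgroup K) (IsLocalRing.ResidueField A) τ
      = 1 := hτ
  have h2 : τ • IsLocalRing.residue A ⟨x, hx⟩ = IsLocalRing.residue A ⟨x, hx⟩ := by
    have := congrArg (fun f => f (IsLocalRing.residue A ⟨x, hx⟩)) h1
    simpa using this
  rw [← IsLocalRing.ResidueField.residue_smul] at h2
  have h3 : (τ • (⟨x, hx⟩ : A)) - ⟨x, hx⟩ ∈ IsLocalRing.maximalIdeal A := by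
    rw [← IsLocalRing.residue_eq_zero_iff, map_sub, h2, sub_self]
  have h4 := (A.valuation_lt_one_iff _).1 h3
  exact h4

end General



section Mem

variable {L : Type*} [Field L] (A : ValuationSubring L)

theorem mem_aux₁ {ξ δ β κ : L} (hξ : ξ ∈ A) (hδ : δ ∈ A) (hβ : β ∈ A) (hκ : κ ∈ A) :
    6 * ξ ^ 2 + 2 * δ * ξ + 2 * κ + β * ξ ∈ A := by
  aesop

theorem mem_aux₂ {a x x' e : L} (ha : a ∈ A) (hx : x ∈ A) (hx' : x' ∈ A) (he : e ∈ A) :
    a + x' + x + e ∈ A := by
  aesop

theorem mem_aux₃ {a₁ a₃ x y : L} (ha₁ : a₁ ∈ A) (ha₃ : a₃ ∈ A) (hx : x ∈ A) (hy : y ∈ A) :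
    y - (-y - a₁ * x - a₃) ∈ A := by
  aesop

theorem mem_aux₄ {a₁ a₂ a₃ a₄ a₆ x z : L} (ha₁ : a₁ ∈ A) (ha₂ : a₂ ∈ A) (ha₃ : a₃ ∈ A)
    (ha₄ : a₄ ∈ A) (ha₆ : a₆ ∈ A) (hx : x ∈ A) (hz : z ∈ A) :
    (x ^ 3 + a₂ * x ^ 2 + a₄ * x + a₆) * z - a₁ * x - a₃ ∈ A := by
  aesop

end Mem

section Curve

variable {K : Type*} [Field K] [DecidableEq K] [Algebra ℚ K] (E : WeierstrassCurve ℚ)
  (A : ValuationSubring K)

/-- the Galois action on an affine point acts on the coordinates -/
theorem smul_some (σ : K ≃ₐ[ℚ] K) {x y : K} (h : (E⁄K).toAffine.Nonsingular x y) :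
    ∃ h' : (E⁄K).toAffine.Nonsingular (σ x) (σ y),
      σ • (Affine.Point.some x y h : (E⁄K).toAffine.Point) = Affine.Point.some (σ x) (σ y) h' :=
  ⟨_, rfl⟩

/-- the ordinate of a point with integral abscissa is integral -/
theorem y_mem {x y : K} (h : (E⁄K).toAffine.Equation x y)
    (ha₁ : (E⁄K).a₁ ∈ A) (ha₂ : (E⁄K).a₂ ∈ A) (ha₃ : (E⁄K).a₃ ∈ A) (ha₄ : (E⁄K).a₄ ∈ A)
    (ha₆ : (E⁄K).a₆ ∈ A) (hx : x ∈ A) : y ∈ A := by
  rcases A.mem_or_inv_mem y with hy | hy
  · exact hy
  · by_cases hy0 : y = 0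
    · rw [hy0]; exact A.zero_mem
    · have heq := (Affine.equation_iff x y).1 h
      have hmem : (x ^ 3 + (E⁄K).a₂ * x ^ 2 + (E⁄K).a₄ * x + (E⁄K).a₆) * y⁻¹
          - (E⁄K).a₁ * x - (E⁄K).a₃ ∈ A := mem_aux₄ A ha₁ ha₂ ha₃ ha₄ ha₆ hx hy
      have e1 : y = (x ^ 3 + (E⁄K).a₂ * x ^ 2 + (E⁄K).a₄ * x + (E⁄K).a₆) * y⁻¹
          - (E⁄K).a₁ * x - (E⁄K).a₃ := by
        field_simp
        linear_combination heq
      rw [e1]
      exact hmem


/-- (C1): for a point `D` with integral abscissa, `σ D - D` lies in the kernel of reduction,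
`σ` in the inertia group -/
theorem smul_sub_mem {σ : K ≃ₐ[ℚ] K} (hσ : σ ∈ A.inertiaSubgroupIn ℚ)
    (ha₁ : (E⁄K).a₁ ∈ A) (ha₂ : (E⁄K).a₂ ∈ A) (ha₃ : (E⁄K).a₃ ∈ A) (ha₄ : (E⁄K).a₄ ∈ A)
    (ha₆ : (E⁄K).a₆ ∈ A) {e β κ : K} (he : e ∈ A)
    (h6 : B6 (E⁄K) e = 0) (hβ' : B2 (E⁄K) e = β) (hκ' : B4 (E⁄K) e = 2 * κ)
    (h2 : A.valuation 2 = 1) (hβ : β ∈ A) (hκ : κ ∈ A)
    {x y : K} (h : (E⁄K).toAffine.Nonsingular x y) (hx : x ∈ A)
    (H : A.valuation ((x - e) * (4 * (x - e) ^ 2 + β * (x - e) + 4 * κ)) < 1 →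
      A.valuation ((x - e) ^ 2 - κ) = 1) :
    σ • (Affine.Point.some x y h : (E⁄K).toAffine.Point) - Affine.Point.some x y h = 0 ∨
      1 < A.valuation (Kummer.xi (E⁄K) e
        (σ • (Affine.Point.some x y h : (E⁄K).toAffine.Point) - Affine.Point.some x y h)) := by
  have h20 : (2 : K) ≠ 0 := by
    intro h0
    rw [h0, map_zero] at h2
    exact zero_ne_one h2
  have hK : IsKummer (Kummer.xi (E⁄K) e) β κ := Kummer.isKummer_xi (E⁄K) h20 e β κ h6 hβ' hκ'
  have hy : y ∈ A := y_mem E A h.1 ha₁ ha₂ ha₃ ha₄ ha₆ hx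
  have hσx : σ x ∈ A := mem_of_mem_inertia A hσ hx
  have hσy : σ y ∈ A := mem_of_mem_inertia A hσ hy
  have hδx : A.valuation (σ x - x) < 1 := sub_mem_nonunits_of_mem_inertia A hσ hx
  have hδy : A.valuation (σ y - y) < 1 := sub_mem_nonunits_of_mem_inertia A hσ hy
  -- `ψ = 2y + a₁x + a₃`
  have hψ : (y - (E⁄K).toAffine.negY x y) ^ 2
      = (x - e) * (4 * (x - e) ^ 2 + β * (x - e) + 4 * κ) := by
    rw [← B6_eq_sq (E⁄K) h.1, Kummer.B6_eq (E⁄K) e β κ h6 hβ' hκ']
  have hψA : y - (E⁄K).toAffine.negY x y ∈ A := mem_aux₃ A ha₁ ha₃ hx hy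
  have hψle : A.valuation (y - (E⁄K).toAffine.negY x y) ≤ 1 := (A.valuation_le_one_iff _).2 hψA
  obtain ⟨h', hσD⟩ := smul_some E σ h
  rw [hσD]
  by_cases hxx : σ x = x
  · -- same abscissa
    rcases Affine.Point.X_eq_iff.1 hxx with heq | heq
    · left
      rw [heq, sub_self]
    · -- `σ D = -D`
      have hy' : σ y = (E⁄K).toAffine.negY x y := by
        rw [Affine.Point.neg_some] at heq
        injection heq
      have hψlt : A.valuation (y - (E⁄K).toAffine.negY x y) < 1 := by
        rw [← hy', ← Valuation.map_neg]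
        have : -(y - σ y) = σ y - y := by ring
        rw [this]
        exact hδy
      have hψ2 : A.valuation ((x - e) * (4 * (x - e) ^ 2 + β * (x - e) + 4 * κ)) < 1 := by
        rw [← hψ, map_pow]
        exact pow_lt_one₀ zero_le hψlt two_ne_zero
      have hN := H hψ2
      rw [heq]
      have e1 : -(Affine.Point.some x y h : (E⁄K).toAffine.Point) - Affine.Point.some x y h
          = -((2 : ℕ) • (Affine.Point.some x y h : (E⁄K).toAffine.Point)) := by
        rw [two_nsmul]; abel
      rw [e1, neg_eq_zero, hK.neg]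
      by_cases h2D : (2 : ℕ) • (Affine.Point.some x y h : (E⁄K).toAffine.Point) = 0
      · left; exact h2D
      · right
        have hdbl := hK.dbl _ (Affine.Point.some_ne_zero h) h2D
        rw [Kummer.xi_some] at hdbl
        have hv := congrArg A.valuation hdbl
        rw [map_mul, map_pow, hN, one_pow] at hv
        by_contra hle
        have hle' := not_lt.1 hle
        have : A.valuation (Kummer.xi (E⁄K) e
            ((2 : ℕ) • (Affine.Point.some x y h : (E⁄K).toAffine.Point))) *
            A.valuation ((x - e) * (4 * (x - e) ^ 2 + β * (x - e) + 4 * κ)) < 1 :=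
          mul_lt_one_of_nonneg_of_lt_one_right hle' zero_le hψ2
        rw [hv] at this
        exact lt_irrefl _ this
  · -- different abscissae
    have hδ0 : σ x - x ≠ 0 := sub_ne_zero.2 hxx
    have hδpos : 0 < A.valuation (σ x - x) := by
      rw [Valuation.pos_iff]; exact hδ0
    by_cases hψ1 : A.valuation (y - (E⁄K).toAffine.negY x y) = 1
    · -- the slope has a pole
      right
      rw [sub_eq_add_neg (Affine.Point.some (σ x) (σ y) h'), Affine.Point.neg_some,
        Affine.Point.add_of_X_ne hxx, Kummer.xi_some, Affine.slope_of_X_ne hxx]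
      have hnum : A.valuation (σ y - (E⁄K).toAffine.negY x y) = 1 := by
        have e1 : σ y - (E⁄K).toAffine.negY x y
            = (σ y - y) + (y - (E⁄K).toAffine.negY x y) := by ring
        rw [e1, Valuation.map_add_eq_of_lt_right _ (by rw [hψ1]; exact hδy), hψ1]
      have hℓv : 1 < A.valuation ((σ y - (E⁄K).toAffine.negY x y) / (σ x - x)) := by
        rw [map_div₀, hnum, one_div]
        exact (one_lt_inv₀ hδpos).2 hδx
      generalize (σ y - (E⁄K).toAffine.negY x y) / (σ x - x) = ℓ at hℓv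
      have hℓA : A.valuation ℓ ≤ A.valuation ℓ ^ 2 := by
        rw [pow_two]
        exact le_mul_of_one_le_left zero_le hℓv.le
      have hℓ2 : A.valuation ℓ < A.valuation ℓ ^ 2 := by
        rw [pow_two]
        exact lt_mul_of_one_lt_left (lt_trans zero_lt_one hℓv) hℓv
      have hc : A.valuation ((E⁄K).a₁ * ℓ - ((E⁄K).a₂ + σ x + x + e)) ≤ A.valuation ℓ := by
        apply Valuation.map_sub_le
        · rw [map_mul]
          exact mul_le_of_le_one_left zero_le ((A.valuation_le_one_iff _).2 ha₁)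
        · have : (E⁄K).a₂ + σ x + x + e ∈ A := mem_aux₂ A ha₂ hx hσx he
          exact le_trans ((A.valuation_le_one_iff _).2 this) hℓv.le
      have e2 : (E⁄K).toAffine.addX (σ x) x ℓ - e
          = ℓ ^ 2 + ((E⁄K).a₁ * ℓ - ((E⁄K).a₂ + σ x + x + e)) := by
        simp only [Affine.addX]; ring
      rw [e2, Valuation.map_add_eq_of_lt_left _ (by rw [map_pow]; exact lt_of_le_of_lt hc hℓ2),
        map_pow]
      exact lt_trans hℓv hℓ2
    · -- the Kummer identities
      have hψlt : A.valuation (y - (E⁄K).toAffine.negY x y) < 1 := lt_of_le_of_ne hψle hψ1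
      have hψ2 : A.valuation ((x - e) * (4 * (x - e) ^ 2 + β * (x - e) + 4 * κ)) < 1 := by
        rw [← hψ, map_pow]
        exact pow_lt_one₀ zero_le hψlt two_ne_zero
      have hN := H hψ2
      have hne : Kummer.xi (E⁄K) e (Affine.Point.some (σ x) (σ y) h') ≠
          Kummer.xi (E⁄K) e (Affine.Point.some x y h) := by
        rw [Kummer.xi_some, Kummer.xi_some]
        intro h0
        exact hxx (by linear_combination h0)
      have hmul := hK.mul _ _ (Affine.Point.some_ne_zero h') (Affine.Point.some_ne_zero h) hne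
      have hadd := hK.add _ _ (Affine.Point.some_ne_zero h') (Affine.Point.some_ne_zero h) hne
      rw [Kummer.xi_some, Kummer.xi_some] at hmul hadd
      generalize Kummer.xi (E⁄K) e (Affine.Point.some (σ x) (σ y) h' + Affine.Point.some x y h)
        = T₁ at hmul hadd
      generalize Affine.Point.some (σ x) (σ y) h' - Affine.Point.some x y h = D' at hmul hadd ⊢
      generalize Kummer.xi (E⁄K) e D' = T₂ at hmul hadd ⊢
      right
      by_contra hle
      have hT₂ : A.valuation T₂ ≤ 1 := not_lt.1 hle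
      have hξ : x - e ∈ A := sub_mem hx he
      have hδA : σ x - x ∈ A := sub_mem hσx hx
      -- `N` is a unit
      have hNv : A.valuation ((σ x - e) * (x - e) - κ) = 1 := by
        have e1 : (σ x - e) * (x - e) - κ = (σ x - x) * (x - e) + ((x - e) ^ 2 - κ) := by ring
        rw [e1, Valuation.map_add_eq_of_lt_right _ (by
          rw [hN, map_mul]
          exact mul_lt_one_of_nonneg_of_lt_one_left zero_le hδx ((A.valuation_le_one_iff _).2 hξ)),
          hN]
      -- `S` is in the maximal ideal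
      have hSv : A.valuation (2 * ((σ x - e) + (x - e)) * ((σ x - e) * (x - e) + κ)
          + β * ((σ x - e) * (x - e))) < 1 := by
        have e1 : 2 * ((σ x - e) + (x - e)) * ((σ x - e) * (x - e) + κ)
            + β * ((σ x - e) * (x - e))
            = (x - e) * (4 * (x - e) ^ 2 + β * (x - e) + 4 * κ)
              + (σ x - x) * (6 * (x - e) ^ 2 + 2 * (σ x - x) * (x - e) + 2 * κ + β * (x - e)) := by
          ring
        rw [e1]
        apply Valuation.map_add_lt _ hψ2
        rw [map_mul]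
        have : 6 * (x - e) ^ 2 + 2 * (σ x - x) * (x - e) + 2 * κ + β * (x - e) ∈ A :=
          mem_aux₁ A hξ hδA hβ hκ
        exact mul_lt_one_of_nonneg_of_lt_one_left zero_le hδx ((A.valuation_le_one_iff _).2 this)
      have hδ2 : A.valuation (((σ x - e) - (x - e)) ^ 2) < 1 := by
        have : (σ x - e) - (x - e) = σ x - x := by ring
        rw [this, map_pow]
        exact pow_lt_one₀ zero_le hδx two_ne_zero
      -- `T₁ δ² = S - T₂ δ²` is in the maximal ideal
      have h1 : A.valuation (T₁ * ((σ x - e) - (x - e)) ^ 2) < 1 := by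
        have e1 : T₁ * ((σ x - e) - (x - e)) ^ 2
            = (2 * ((σ x - e) + (x - e)) * ((σ x - e) * (x - e) + κ)
              + β * ((σ x - e) * (x - e))) - T₂ * ((σ x - e) - (x - e)) ^ 2 := by
          linear_combination hadd
        rw [e1]
        apply Valuation.map_sub_lt _ hSv
        rw [map_mul]
        exact mul_lt_one_of_nonneg_of_lt_one_right hT₂ zero_le hδ2
      have h2' : A.valuation (((σ x - e) * (x - e) - κ) ^ 2) < 1 := by
        have e1 : ((σ x - e) * (x - e) - κ) ^ 2 = (T₁ * ((σ x - e) - (x - e)) ^ 2) * T₂ := by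
          linear_combination -hmul
        rw [e1, map_mul]
        exact mul_lt_one_of_nonneg_of_lt_one_left zero_le h1 hT₂
      rw [map_pow, hNv, one_pow] at h2'
      exact lt_irrefl _ h2'


/-- (FIX): a point whose abscissa `x` is fixed by `σ` and satisfies `v κ < v (x - e) < 1`
(node case, `v β = 1`) is fixed by `σ` in the inertia group -/
theorem smul_eq_self {σ : K ≃ₐ[ℚ] K} (hσ : σ ∈ A.inertiaSubgroupIn ℚ) {e β κ : K}
    (h6 : B6 (E⁄K) e = 0) (hβ' : B2 (E⁄K) e = β) (hκ' : B4 (E⁄K) e = 2 * κ)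
    (h2 : A.valuation 2 = 1) (hβ : A.valuation β = 1)
    {x y : K} (h : (E⁄K).toAffine.Nonsingular x y) (hσx : σ x = x) (hσe : σ e = e)
    (hr1 : A.valuation κ < A.valuation (x - e)) (hr2 : A.valuation (x - e) < 1) :
    σ • (Affine.Point.some x y h : (E⁄K).toAffine.Point) = Affine.Point.some x y h := by
  obtain ⟨h', hσD⟩ := smul_some E σ h
  rw [hσD]
  rcases Affine.Point.X_eq_iff.1 hσx with heq | heq
  · exact heq
  · exfalso
    have hy' : σ y = (E⁄K).toAffine.negY x y := by
      rw [Affine.Point.neg_some] at heq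
      injection heq
    have hr0 : x - e ≠ 0 := by
      intro h0
      rw [h0, map_zero] at hr1
      exact not_lt_zero hr1
    have hrpos : 0 < A.valuation (x - e) := lt_of_le_of_lt zero_le hr1
    have h4 : A.valuation (4 : K) = 1 := by
      have : (4 : K) = 2 * 2 := by norm_num
      rw [this, map_mul, h2, one_mul]
    -- `ψ² = r (4r² + βr + 4κ)` has valuation `v(r)²`
    have hψ : (y - (E⁄K).toAffine.negY x y) ^ 2
        = (x - e) * (4 * (x - e) ^ 2 + β * (x - e) + 4 * κ) := by
      rw [← B6_eq_sq (E⁄K) h.1, Kummer.B6_eq (E⁄K) e β κ h6 hβ' hκ']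
    have hv1 : A.valuation (4 * (x - e) ^ 2 + β * (x - e) + 4 * κ) = A.valuation (x - e) := by
      have e1 : 4 * (x - e) ^ 2 + β * (x - e) + 4 * κ
          = (4 * (x - e) ^ 2 + 4 * κ) + β * (x - e) := by ring
      have hβr : A.valuation (β * (x - e)) = A.valuation (x - e) := by
        rw [map_mul, hβ, one_mul]
      rw [e1, Valuation.map_add_eq_of_lt_right _ (by
        rw [hβr]
        apply Valuation.map_add_lt
        · rw [map_mul, h4, one_mul, map_pow, pow_two]
          exact mul_lt_of_lt_one_left hrpos hr2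
        · rw [map_mul, h4, one_mul]
          exact hr1), hβr]
    -- `s = ψ / r` is a unit
    set s := (y - (E⁄K).toAffine.negY x y) / (x - e) with hs
    have hs2 : A.valuation s ^ 2 = 1 := by
      rw [hs, ← map_pow, div_pow, hψ, map_div₀, map_mul, hv1, map_pow, pow_two]
      exact div_self (mul_ne_zero hrpos.ne' hrpos.ne')
    have hs1 : A.valuation s = 1 := by
      rcases lt_trichotomy (A.valuation s) 1 with hlt | heq' | hgt
      · exfalso
        have := pow_lt_one₀ zero_le hlt (two_ne_zero)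
        rw [hs2] at this
        exact lt_irrefl _ this
      · exact heq'
      · exfalso
        have := one_lt_pow₀ hgt (two_ne_zero)
        rw [hs2] at this
        exact lt_irrefl _ this
    have hsA : s ∈ A := (A.valuation_le_one_iff _).1 hs1.le
    -- `σ s = -s`
    have hσneg : σ ((E⁄K).toAffine.negY x y) = y := by
      have e1 : σ ((E⁄K).toAffine.negY x y) = (E⁄K).toAffine.negY (σ x) (σ y) := by
        simp only [Affine.negY, map_sub, map_neg, map_mul]
        congr 2
        · congr 1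
          exact σ.commutes E.a₁
        · exact σ.commutes E.a₃
      rw [e1, hσx, hy', Affine.negY_negY]
    have hσs : σ s = -s := by
      rw [hs, map_div₀, map_sub, map_sub, hσx, hσe, hy', hσneg]
      ring
    have hlt := sub_mem_nonunits_of_mem_inertia A hσ hsA
    rw [hσs] at hlt
    have e2 : -s - s = -(2 * s) := by ring
    rw [e2, Valuation.map_neg, map_mul, h2, hs1, one_mul] at hlt
    exact lt_irrefl _ hlt

end Curve

end Fermat.Agent.S05Lib.Inertia
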