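import Mathlib
import Fermat.Agent.S05Lib.Defs

/-!
# S05: the node case (pure valuation algebra on an abstract Kummer line)

Standing hypotheses: `v 2 = 1`, `v β = 1`, `v κ < 1` (multiplicative reduction: the point `ξ = 0`
reduces to the node).

* `E0` : the points not reducing to the node form a subgroup.
* `two_nsmul_mem_E0`, `sub_or_add_mem_E0` : (T3), (B5).
* `exists_nsmul_pow_eq` : (SEQ) a point of prime order `p ≥ 3` outside `E0` has a multiple `B` with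
  `v (ξ B) ^ p = v κ ^ 2` (the "fold rule").
-/

set_option autoImplicit false

namespace Fermat.Agent.S05Lib.Node
open Fermat.Agent.S05Lib

section Fold

variable {Γ₀ : Type*} [LinearOrderedCommGroupWithZero Γ₀]

/-- One step of the fold recursion in the value group (`a = t ^ k`). -/
theorem fold_step {c t a τ0 τ1 τ2 W : Γ₀} (hc0 : c ≠ 0) (hct : c < t) (ht1 : t < 1) (ha : a ≠ 0)
    (hA : (c < a ∧ τ0 = a) ∨ (a < c ∧ τ0 * a = c ^ 2))
    (hB : (c < a * t ∧ τ1 = a * t) ∨ (a * t < c ∧ τ1 * (a * t) = c ^ 2))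
    (hrec : τ2 * τ0 * t ^ 2 = W ^ 2)
    (hWle : W ≤ max (τ1 * t) c)
    (hWeq : τ1 * t ≠ c → W = max (τ1 * t) c)
    (hlow : c < τ2) :
    (c < a * t * t ∧ τ2 = a * t * t) ∨ (a * t * t < c ∧ τ2 * (a * t * t) = c ^ 2) := by
  have hcpos : 0 < c := zero_lt_iff.mpr hc0
  have htpos : 0 < t := lt_of_le_of_lt zero_le hct
  have ht0 : t ≠ 0 := htpos.ne'
  have hapos : 0 < a := zero_lt_iff.mpr ha
  have hatt : a * t * t ≤ a * t := by
    calc a * t * t ≤ a * t * 1 := mul_le_mul_right ht1.le _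
      _ = a * t := mul_one _
  have hat : a * t ≤ a := by
    calc a * t ≤ a * 1 := mul_le_mul_right ht1.le _
      _ = a := mul_one _
  rcases hA with ⟨hA1, hA2⟩ | ⟨hA1, hA2⟩ <;> rcases hB with ⟨hB1, hB2⟩ | ⟨hB1, hB2⟩
  · rw [hA2] at hrec
    rw [hB2] at hWle hWeq
    rcases lt_trichotomy c (a * t * t) with h | h | h
    · left
      refine ⟨h, ?_⟩
      have hW : W = a * t * t := by rw [hWeq h.ne', max_eq_left h.le]
      rw [hW] at hrec
      field_simp at hrec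
      rw [hrec, sq, mul_assoc]
    · exfalso
      have hW : W ≤ c := by
        rw [← h, max_self] at hWle
        exact hWle
      have h2 : τ2 * (a * t * t) ≤ c * (a * t * t) := by
        calc τ2 * (a * t * t) = W ^ 2 := by rw [← hrec]; field_simp
          _ ≤ c ^ 2 := pow_le_pow_left' hW 2
          _ = c * (a * t * t) := by rw [← h]; exact sq c
      exact absurd (le_of_mul_le_mul_right h2 (lt_of_lt_of_eq hcpos h)) (not_le.mpr hlow)
    · right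
      refine ⟨h, ?_⟩
      have hW : W = c := by rw [hWeq h.ne, max_eq_right h.le]
      rw [hW] at hrec
      rw [← hrec]
      field_simp
  · rw [hA2] at hrec
    have hx : τ1 * t < c := by
      apply lt_of_mul_lt_mul_right (a := a)
      · calc τ1 * t * a = c ^ 2 := by rw [← hB2]; field_simp
          _ = c * c := sq c
          _ < c * a := mul_lt_mul_of_pos_left hA1 hcpos
      · exact zero_le
    have hW : W = c := by rw [hWeq hx.ne, max_eq_right hx.le]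
    right
    refine ⟨lt_of_le_of_lt hatt hB1, ?_⟩
    rw [hW] at hrec
    rw [← hrec]
    field_simp
  · exfalso
    exact absurd (lt_of_lt_of_le hB1 hat) (not_lt.mpr hA1.le)
  · have hx : c < τ1 * t := by
      apply lt_of_mul_lt_mul_right (a := a)
      · calc c * a < c * c := mul_lt_mul_of_pos_left hA1 hcpos
          _ = c ^ 2 := (sq c).symm
          _ = τ1 * t * a := by rw [← hB2]; field_simp
      · exact zero_le
    have hW : W = τ1 * t := by rw [hWeq hx.ne', max_eq_left hx.le]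
    right
    refine ⟨lt_of_le_of_lt hatt hB1, ?_⟩
    rw [hW] at hrec
    have h0' : τ0 = c ^ 2 / a := eq_div_of_mul_eq ha hA2
    have h1' : τ1 = c ^ 2 / (a * t) := eq_div_of_mul_eq (mul_ne_zero ha ht0) hB2
    rw [h0', h1'] at hrec
    field_simp at hrec
    rw [← hrec]
    field_simp

/-- The fold rule in the value group: a sequence `τ` with `τ 0 = 1`, `τ 1 = τ n = t`, all terms
above `c`, satisfying the recursion `τ (k+1) τ (k-1) t² = W k ²` where `W k` is the valuation of a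
difference of elements of valuations `τ k * t` and `c`, forces `t ^ (n + 1) = c ^ 2`. -/
theorem fold_core {c t : Γ₀} {n : ℕ} (τ W : ℕ → Γ₀)
    (hc0 : c ≠ 0) (hct : c < t) (ht1 : t < 1) (hn : 2 ≤ n)
    (h0 : τ 0 = 1) (h1 : τ 1 = t) (hlast : τ n = t)
    (hlow : ∀ k, 1 ≤ k → k ≤ n → c < τ k)
    (hrec : ∀ k, 1 ≤ k → k < n → τ (k + 1) * τ (k - 1) * t ^ 2 = W k ^ 2)
    (hWle : ∀ k, 1 ≤ k → k < n → W k ≤ max (τ k * t) c)
    (hWeq : ∀ k, 1 ≤ k → k < n → τ k * t ≠ c → W k = max (τ k * t) c) :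
    t ^ (n + 1) = c ^ 2 := by
  have htpos : 0 < t := lt_of_le_of_lt zero_le hct
  have ht0 : t ≠ 0 := htpos.ne'
  have key : ∀ k, k + 1 ≤ n →
      ((c < t ^ k ∧ τ k = t ^ k) ∨ (t ^ k < c ∧ τ k * t ^ k = c ^ 2)) ∧
      ((c < t ^ (k + 1) ∧ τ (k + 1) = t ^ (k + 1)) ∨
        (t ^ (k + 1) < c ∧ τ (k + 1) * t ^ (k + 1) = c ^ 2)) := by
    intro k
    induction k with
    | zero =>
      intro _
      refine ⟨Or.inl ⟨?_, ?_⟩, Or.inl ⟨?_, ?_⟩⟩
      · rw [pow_zero]; exact hct.trans ht1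
      · rw [pow_zero]; exact h0
      · rw [zero_add, pow_one]; exact hct
      · rw [zero_add, pow_one]; exact h1
    | succ k ih =>
      intro hk
      obtain ⟨hA, hB⟩ := ih (by omega)
      refine ⟨hB, ?_⟩
      have h3 := hrec (k + 1) (by omega) (by omega)
      rw [Nat.add_sub_cancel] at h3
      have hstep := fold_step hc0 hct ht1 (pow_ne_zero k ht0) hA
        (by rw [← pow_succ]; exact hB) h3 (hWle (k + 1) (by omega) (by omega))
        (hWeq (k + 1) (by omega) (by omega)) (hlow (k + 1 + 1) (by omega) hk)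
      rw [← pow_succ, ← pow_succ] at hstep
      exact hstep
  obtain ⟨m, rfl⟩ : ∃ m, n = m + 2 := ⟨n - 2, by omega⟩
  rcases (key (m + 1) le_rfl).2 with ⟨_, h2⟩ | ⟨_, h2⟩
  · exfalso
    rw [hlast] at h2
    have h3 : t ^ (m + 1 + 1) < t ^ 1 := pow_lt_pow_right_of_lt_one₀ htpos ht1 (by omega)
    rw [pow_one, ← h2] at h3
    exact lt_irrefl _ h3
  · rw [hlast] at h2
    rw [pow_succ', h2]

end Fold

section Val

variable {G F Γ₀ : Type*} [AddCommGroup G] [Field F] [LinearOrderedCommGroupWithZero Γ₀]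
  (v : Valuation F Γ₀) {ξ : G → F} {β κ : F}

theorem val_four (h2 : v 2 = 1) : v 4 = 1 := by
  have h4 : (4 : F) = 2 * 2 := by norm_num
  rw [h4, map_mul, h2, mul_one]

/-- Bound for the `2`-division factor `4 a² + β a + 4 κ`. -/
theorem val_cubic_le (h2 : v 2 = 1) (hβ : v β = 1) (a : F) {g : Γ₀} (h1 : v a ^ 2 ≤ g)
    (h1' : v a ≤ g) (h3 : v κ ≤ g) : v (4 * a ^ 2 + β * a + 4 * κ) ≤ g := by
  refine v.map_add_le (v.map_add_le ?_ ?_) ?_
  · rw [map_mul, map_pow, val_four v h2, one_mul]; exact h1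
  · rw [map_mul, hβ, one_mul]; exact h1'
  · rw [map_mul, val_four v h2, one_mul]; exact h3

/-- Bound for the right-hand side of the sum formula. -/
theorem val_sum_le (h2 : v 2 = 1) (hβ : v β = 1) (a b : F) {g : Γ₀}
    (h1 : v (a + b) * v (a * b + κ) ≤ g) (h3 : v a * v b ≤ g) :
    v (2 * (a + b) * (a * b + κ) + β * (a * b)) ≤ g := by
  refine v.map_add_le ?_ ?_
  · rw [map_mul, map_mul, h2, one_mul]; exact h1
  · rw [map_mul, map_mul, hβ, one_mul]; exact h3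

theorem ne_zero_of_one_le (hK : IsKummer ξ β κ) {P : G} (hP : 1 ≤ v (ξ P)) : P ≠ 0 := by
  rintro rfl
  rw [hK.zero, map_zero] at hP
  exact absurd hP (not_le.mpr zero_lt_one)

/-- Closure of `E0` under addition: the generic case. -/
theorem one_le_val_add_of_ne (hK : IsKummer ξ β κ) (h2 : v 2 = 1) (hβ : v β = 1) (hκ : v κ < 1)
    {P Q : G} (hP : 1 ≤ v (ξ P)) (hQ : 1 ≤ v (ξ Q)) (hne : ξ P ≠ ξ Q) :
    1 ≤ v (ξ (P + Q)) := by
  have hP0 : P ≠ 0 := ne_zero_of_one_le v hK hP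
  have hQ0 : Q ≠ 0 := ne_zero_of_one_le v hK hQ
  by_contra hlt
  rw [not_le] at hlt
  have hmul := congrArg v (hK.mul P Q hP0 hQ0 hne)
  have hadd := congrArg v (hK.add P Q hP0 hQ0 hne)
  rw [map_mul, map_mul, map_pow, map_pow] at hmul
  rw [map_mul, map_pow] at hadd
  have hAB : 1 ≤ v (ξ P) * v (ξ Q) := one_le_mul_of_one_le_of_one_le hP hQ
  have hABpos : 0 < v (ξ P) * v (ξ Q) := lt_of_lt_of_le zero_lt_one hAB
  have hN : v (ξ P * ξ Q - κ) = v (ξ P) * v (ξ Q) := by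
    rw [v.map_sub_eq_of_lt_left, map_mul]
    rw [map_mul]
    exact lt_of_lt_of_le hκ hAB
  rw [hN] at hmul
  have hM1 : max (v (ξ P)) (v (ξ Q)) ≤ v (ξ P) * v (ξ Q) := by
    apply max_le
    · calc v (ξ P) = v (ξ P) * 1 := (mul_one _).symm
        _ ≤ v (ξ P) * v (ξ Q) := mul_le_mul_right hQ _
    · calc v (ξ Q) = 1 * v (ξ Q) := (one_mul _).symm
        _ ≤ v (ξ P) * v (ξ Q) := mul_le_mul_left hP _
  have hM0 : 1 ≤ max (v (ξ P)) (v (ξ Q)) := le_max_of_le_left hP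
  have hD : v (ξ P - ξ Q) ≤ max (v (ξ P)) (v (ξ Q)) := v.map_sub _ _
  have hD2 : v (ξ P - ξ Q) ^ 2 ≤ (v (ξ P) * v (ξ Q)) ^ 2 := pow_le_pow_left' (hD.trans hM1) 2
  have hsq_pos : 0 < (v (ξ P) * v (ξ Q)) ^ 2 := pow_pos hABpos 2
  have hXD_pos : 0 < v (ξ (P - Q)) * v (ξ P - ξ Q) ^ 2 := by
    rw [zero_lt_iff]
    intro h0
    rw [mul_assoc, h0, mul_zero] at hmul
    exact hsq_pos.ne hmul
  have h3 : (v (ξ P) * v (ξ Q)) ^ 2 < v (ξ (P - Q)) * v (ξ P - ξ Q) ^ 2 := by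
    calc (v (ξ P) * v (ξ Q)) ^ 2 = v (ξ (P + Q)) * (v (ξ (P - Q)) * v (ξ P - ξ Q) ^ 2) := by
          rw [← hmul, mul_assoc]
      _ < 1 * (v (ξ (P - Q)) * v (ξ P - ξ Q) ^ 2) := mul_lt_mul_of_pos_right hlt hXD_pos
      _ = v (ξ (P - Q)) * v (ξ P - ξ Q) ^ 2 := one_mul _
  have h4 : 1 < v (ξ (P - Q)) := by
    apply lt_of_mul_lt_mul_right (a := (v (ξ P) * v (ξ Q)) ^ 2) _ zero_le
    calc 1 * (v (ξ P) * v (ξ Q)) ^ 2 = (v (ξ P) * v (ξ Q)) ^ 2 := one_mul _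
      _ < v (ξ (P - Q)) * v (ξ P - ξ Q) ^ 2 := h3
      _ ≤ v (ξ (P - Q)) * (v (ξ P) * v (ξ Q)) ^ 2 := mul_le_mul_right hD2 _
  have h5 : v (ξ (P + Q) + ξ (P - Q)) = v (ξ (P - Q)) :=
    v.map_add_eq_of_lt_right (hlt.trans h4)
  rw [h5] at hadd
  have h6 : v (2 * (ξ P + ξ Q) * (ξ P * ξ Q + κ) + β * (ξ P * ξ Q)) ≤
      max (v (ξ P)) (v (ξ Q)) * (v (ξ P) * v (ξ Q)) := by
    apply val_sum_le v h2 hβ
    · refine mul_le_mul' (v.map_add _ _) (v.map_add_le ?_ ?_)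
      · rw [map_mul]
      · exact hκ.le.trans hAB
    · calc v (ξ P) * v (ξ Q) = 1 * (v (ξ P) * v (ξ Q)) := (one_mul _).symm
        _ ≤ max (v (ξ P)) (v (ξ Q)) * (v (ξ P) * v (ξ Q)) := mul_le_mul_left hM0 _
  have h7 : (v (ξ P) * v (ξ Q)) ^ 2 < (v (ξ P) * v (ξ Q)) ^ 2 := by
    calc (v (ξ P) * v (ξ Q)) ^ 2 < v (ξ (P - Q)) * v (ξ P - ξ Q) ^ 2 := h3
      _ = v (2 * (ξ P + ξ Q) * (ξ P * ξ Q + κ) + β * (ξ P * ξ Q)) := hadd
      _ ≤ max (v (ξ P)) (v (ξ Q)) * (v (ξ P) * v (ξ Q)) := h6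
      _ ≤ (v (ξ P) * v (ξ Q)) * (v (ξ P) * v (ξ Q)) := mul_le_mul_left hM1 _
      _ = (v (ξ P) * v (ξ Q)) ^ 2 := (sq _).symm
  exact lt_irrefl _ h7

/-- Closure of `E0` under doubling. -/
theorem one_le_val_two_nsmul (hK : IsKummer ξ β κ) (h2 : v 2 = 1) (hβ : v β = 1) (hκ : v κ < 1)
    {P : G} (hP : 1 ≤ v (ξ P)) (h2P : (2 : ℕ) • P ≠ 0) : 1 ≤ v (ξ ((2 : ℕ) • P)) := by
  have hP0 : P ≠ 0 := ne_zero_of_one_le v hK hP
  have hdbl := congrArg v (hK.dbl P hP0 h2P)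
  rw [map_mul, map_mul, map_pow] at hdbl
  have hA2 : 1 ≤ v (ξ P) ^ 2 := one_le_pow_of_one_le' hP 2
  have hApos : 0 < v (ξ P) := lt_of_lt_of_le zero_lt_one hP
  have hN : v (ξ P ^ 2 - κ) = v (ξ P) ^ 2 := by
    rw [v.map_sub_eq_of_lt_left, map_pow]
    rw [map_pow]
    exact lt_of_lt_of_le hκ hA2
  rw [hN] at hdbl
  have hAle : v (ξ P) ≤ v (ξ P) ^ 2 := by
    calc v (ξ P) = v (ξ P) * 1 := (mul_one _).symm
      _ ≤ v (ξ P) * v (ξ P) := mul_le_mul_right hP _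
      _ = v (ξ P) ^ 2 := (sq _).symm
  have hC : v (4 * ξ P ^ 2 + β * ξ P + 4 * κ) ≤ v (ξ P) ^ 2 :=
    val_cubic_le v h2 hβ (ξ P) le_rfl hAle (hκ.le.trans hA2)
  have h3 : v (ξ P) * (v (ξ P) * v (ξ P) ^ 2) ≤
      v (ξ ((2 : ℕ) • P)) * (v (ξ P) * v (ξ P) ^ 2) := by
    calc v (ξ P) * (v (ξ P) * v (ξ P) ^ 2) = (v (ξ P) ^ 2) ^ 2 := by
          rw [sq (v (ξ P) ^ 2), sq, mul_assoc]
      _ = v (ξ ((2 : ℕ) • P)) * (v (ξ P) * v (4 * ξ P ^ 2 + β * ξ P + 4 * κ)) := hdbl.symm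
      _ ≤ v (ξ ((2 : ℕ) • P)) * (v (ξ P) * v (ξ P) ^ 2) :=
          mul_le_mul_right (mul_le_mul_right hC _) _
  exact hP.trans (le_of_mul_le_mul_right h3 (mul_pos hApos (pow_pos hApos 2)))

theorem add_mem_aux (hK : IsKummer ξ β κ) (h2 : v 2 = 1) (hβ : v β = 1) (hκ : v κ < 1)
    {P Q : G} (hP : P = 0 ∨ 1 ≤ v (ξ P)) (hQ : Q = 0 ∨ 1 ≤ v (ξ Q)) :
    P + Q = 0 ∨ 1 ≤ v (ξ (P + Q)) := by
  rcases hP with rfl | hP
  · rw [zero_add]; exact hQ
  rcases hQ with rfl | hQ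
  · rw [add_zero]; exact Or.inr hP
  have hP0 : P ≠ 0 := ne_zero_of_one_le v hK hP
  have hQ0 : Q ≠ 0 := ne_zero_of_one_le v hK hQ
  by_cases hne : ξ P = ξ Q
  · rcases hK.eq_or_eq_neg P Q hP0 hQ0 hne with rfl | rfl
    · by_cases h2P : (2 : ℕ) • P = 0
      · left; rw [← two_nsmul]; exact h2P
      · right; rw [← two_nsmul]; exact one_le_val_two_nsmul v hK h2 hβ hκ hP h2P
    · left; simp
  · exact Or.inr (one_le_val_add_of_ne v hK h2 hβ hκ hP hQ hne)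

/-- (E0) the points not reducing to the node, `{0} ∪ {P | 1 ≤ v (ξ P)}`, form a subgroup. -/
def E0 (hK : IsKummer ξ β κ) (h2 : v 2 = 1) (hβ : v β = 1) (hκ : v κ < 1) : AddSubgroup G where
  carrier := {P | P = 0 ∨ 1 ≤ v (ξ P)}
  zero_mem' := Or.inl rfl
  add_mem' := by
    intro P Q hP hQ
    exact add_mem_aux v hK h2 hβ hκ hP hQ
  neg_mem' := by
    intro P hP
    rcases hP with rfl | hP
    · exact Or.inl neg_zero
    · refine Or.inr ?_
      show 1 ≤ v (ξ (-P))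
      rw [hK.neg]; exact hP

theorem mem_E0 (hK : IsKummer ξ β κ) (h2 : v 2 = 1) (hβ : v β = 1) (hκ : v κ < 1) {P : G} :
    P ∈ E0 v hK h2 hβ hκ ↔ P = 0 ∨ 1 ≤ v (ξ P) := Iff.rfl

/-- (T3) a nonzero point reducing into the node (deeper than `κ`) doubles into `E0`. -/
theorem two_nsmul_mem_E0 (hK : IsKummer ξ β κ) (h2 : v 2 = 1) (hβ : v β = 1) (hκ : v κ < 1)
    {P : G} (hP : P ≠ 0) (h : v (ξ P) ≤ v κ) : (2 : ℕ) • P ∈ E0 v hK h2 hβ hκ := by
  rw [mem_E0]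
  by_cases h2P : (2 : ℕ) • P = 0
  · exact Or.inl h2P
  right
  have hne : ξ P * (4 * ξ P ^ 2 + β * ξ P + 4 * κ) ≠ 0 :=
    fun h0 => h2P ((hK.two_nsmul_eq_zero_iff P hP).mpr h0)
  have ha0 : ξ P ≠ 0 := left_ne_zero_of_mul hne
  have hApos : 0 < v (ξ P) := zero_lt_iff.mpr ((v.ne_zero_iff).mpr ha0)
  have hcpos : 0 < v κ := lt_of_lt_of_le hApos h
  have hA1 : v (ξ P) < 1 := lt_of_le_of_lt h hκ
  have hAsq : v (ξ P) ^ 2 < v κ := by
    calc v (ξ P) ^ 2 = v (ξ P) * v (ξ P) := sq _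
      _ < 1 * v (ξ P) := mul_lt_mul_of_pos_right hA1 hApos
      _ = v (ξ P) := one_mul _
      _ ≤ v κ := h
  have hdbl := congrArg v (hK.dbl P hP h2P)
  rw [map_mul, map_mul, map_pow] at hdbl
  have hN : v (ξ P ^ 2 - κ) = v κ := by
    rw [v.map_sub_eq_of_lt_right]
    rw [map_pow]
    exact hAsq
  rw [hN] at hdbl
  have hC : v (4 * ξ P ^ 2 + β * ξ P + 4 * κ) ≤ v κ :=
    val_cubic_le v h2 hβ (ξ P) hAsq.le h le_rfl
  have h3 : 1 * (v κ * v κ) ≤ v (ξ ((2 : ℕ) • P)) * (v κ * v κ) := by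
    calc 1 * (v κ * v κ) = v κ ^ 2 := by rw [one_mul, sq]
      _ = v (ξ ((2 : ℕ) • P)) * (v (ξ P) * v (4 * ξ P ^ 2 + β * ξ P + 4 * κ)) := hdbl.symm
      _ ≤ v (ξ ((2 : ℕ) • P)) * (v κ * v κ) := mul_le_mul_right (mul_le_mul' h hC) _
  exact le_of_mul_le_mul_right h3 (mul_pos hcpos hcpos)

/-- (B5) two nonzero points of the same depth strictly between `κ` and `1` differ or add up to a
point of `E0`. -/
theorem sub_or_add_mem_E0 (hK : IsKummer ξ β κ) (h2 : v 2 = 1) (hβ : v β = 1) (hκ : v κ < 1)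
    {P Q : G} (hP : P ≠ 0) (hQ : Q ≠ 0) (hPQ : v (ξ P) = v (ξ Q)) (h1 : v κ < v (ξ P))
    (h1' : v (ξ P) < 1) : P - Q ∈ E0 v hK h2 hβ hκ ∨ P + Q ∈ E0 v hK h2 hβ hκ := by
  rw [mem_E0, mem_E0]
  by_cases hne : ξ P = ξ Q
  · rcases hK.eq_or_eq_neg P Q hP hQ hne with rfl | rfl
    · exact Or.inl (Or.inl (sub_self _))
    · exact Or.inr (Or.inl (by simp))
  have hrpos : 0 < v (ξ P) := lt_of_le_of_lt zero_le h1
  have hadd := congrArg v (hK.add P Q hP hQ hne)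
  rw [map_mul, map_pow] at hadd
  have hab : v (ξ P * ξ Q) = v (ξ P) * v (ξ P) := by rw [map_mul, ← hPQ]
  have hab_lt : v (ξ P * ξ Q) < v (ξ P) := by
    rw [hab]
    calc v (ξ P) * v (ξ P) < 1 * v (ξ P) := mul_lt_mul_of_pos_right h1' hrpos
      _ = v (ξ P) := one_mul _
  have hT1 : v (2 * (ξ P + ξ Q) * (ξ P * ξ Q + κ)) < v (ξ P) * v (ξ P) := by
    rw [v.map_mul, v.map_mul, h2, one_mul]
    calc v (ξ P + ξ Q) * v (ξ P * ξ Q + κ) ≤ v (ξ P) * v (ξ P * ξ Q + κ) :=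
          mul_le_mul_left (v.map_add_le le_rfl hPQ.symm.le) _
      _ < v (ξ P) * v (ξ P) := mul_lt_mul_of_pos_left (v.map_add_lt hab_lt h1) hrpos
  have hT2 : v (β * (ξ P * ξ Q)) = v (ξ P) * v (ξ P) := by rw [v.map_mul, hβ, one_mul, hab]
  have hS : v (2 * (ξ P + ξ Q) * (ξ P * ξ Q + κ) + β * (ξ P * ξ Q)) = v (ξ P) * v (ξ P) := by
    rw [v.map_add_eq_of_lt_right (by rw [hT2]; exact hT1), hT2]
  rw [hS] at hadd
  have hD : v (ξ P - ξ Q) ≤ v (ξ P) := v.map_sub_le le_rfl hPQ.symm.le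
  have h3 : 1 * (v (ξ P) * v (ξ P)) ≤ v (ξ (P + Q) + ξ (P - Q)) * (v (ξ P) * v (ξ P)) := by
    calc 1 * (v (ξ P) * v (ξ P)) = v (ξ P) * v (ξ P) := one_mul _
      _ = v (ξ (P + Q) + ξ (P - Q)) * v (ξ P - ξ Q) ^ 2 := hadd.symm
      _ ≤ v (ξ (P + Q) + ξ (P - Q)) * (v (ξ P) * v (ξ P)) := by
          rw [sq]
          exact mul_le_mul_right (mul_le_mul' hD hD) _
  have h4 : 1 ≤ v (ξ (P + Q) + ξ (P - Q)) := le_of_mul_le_mul_right h3 (mul_pos hrpos hrpos)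
  rcases le_max_iff.mp (h4.trans (v.map_add _ _)) with h5 | h5
  · exact Or.inr (Or.inr h5)
  · exact Or.inl (Or.inr h5)

/-- (SEQ) a point of odd prime order `p` outside `E0` has a multiple `B = k • P`, `0 < k < p`,
with `v (ξ B) ^ p = v κ ^ 2`. -/
theorem exists_nsmul_pow_eq (hK : IsKummer ξ β κ) (h2 : v 2 = 1) (hβ : v β = 1) (hκ : v κ < 1)
    (hκ0 : κ ≠ 0) {p : ℕ} (hp : p.Prime) (hp3 : 3 ≤ p) {P : G} (hpP : p • P = 0)
    (hP : P ∉ E0 v hK h2 hβ hκ) :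
    ∃ k : ℕ, 0 < k ∧ k < p ∧ v (ξ (k • P)) ^ p = v κ ^ 2 := by
  have hmod : ∀ j : ℕ, j • P = (j % p) • P := by
    intro j
    conv_lhs => rw [← Nat.div_add_mod j p, add_nsmul, mul_nsmul, hpP, smul_zero, zero_add]
  have M1 : ∀ j : ℕ, ¬ p ∣ j → j • P ∉ E0 v hK h2 hβ hκ := by
    intro j hj hmem
    have hcop : Nat.Coprime j p := ((Nat.Prime.coprime_iff_not_dvd hp).mpr hj).symm
    obtain ⟨m, -, hm⟩ := Nat.exists_mul_mod_eq_one_of_coprime hcop hp.one_lt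
    have h1 : (j * m) • P = P := by rw [hmod, hm, one_nsmul]
    have h3 : (j * m) • P ∈ E0 v hK h2 hβ hκ := by
      rw [mul_nsmul]
      exact (E0 v hK h2 hβ hκ).nsmul_mem hmem m
    rw [h1] at h3
    exact hP h3
  have hp2 : ¬ p ∣ 2 := fun h => by
    have := Nat.le_of_dvd (by norm_num) h
    omega
  have M2 : ∀ j : ℕ, ¬ p ∣ j → v κ < v (ξ (j • P)) := by
    intro j hj
    by_contra hle
    rw [not_lt] at hle
    have hj0 : j • P ≠ 0 := fun h0 => M1 j hj (by rw [h0]; exact zero_mem _)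
    have h3 := two_nsmul_mem_E0 v hK h2 hβ hκ hj0 hle
    rw [← mul_nsmul] at h3
    exact M1 (j * 2) (fun h => (hp.dvd_mul.mp h).elim hj hp2) h3
  have M3 : ∀ j : ℕ, ¬ p ∣ j → v (ξ (j • P)) < 1 := by
    intro j hj
    by_contra hle
    rw [not_lt] at hle
    exact M1 j hj (Or.inr hle)
  obtain ⟨k₀, hk₀mem, hmax⟩ := Finset.exists_max_image (Finset.Icc 1 (p - 1))
    (fun k => v (ξ (k • P))) ⟨1, Finset.mem_Icc.mpr ⟨le_rfl, by omega⟩⟩
  rw [Finset.mem_Icc] at hk₀mem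
  have hk₀ : ¬ p ∣ k₀ := Nat.not_dvd_of_pos_of_lt (by omega) (by omega)
  have M4 : ∀ j : ℕ, ¬ p ∣ j → v (ξ (j • P)) ≤ v (ξ (k₀ • P)) := by
    intro j hj
    rw [hmod j]
    apply hmax
    rw [Finset.mem_Icc]
    have h1 : j % p ≠ 0 := fun h => hj (Nat.dvd_of_mod_eq_zero h)
    have h2 : j % p < p := Nat.mod_lt _ hp.pos
    omega
  have hkB : ∀ k : ℕ, k • k₀ • P = (k₀ * k) • P := fun k => (mul_nsmul P k₀ k).symm
  have hnd : ∀ k : ℕ, ¬ p ∣ k → ¬ p ∣ k₀ * k := fun k hk h => (hp.dvd_mul.mp h).elim hk₀ hk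
  have hnd' : ∀ k : ℕ, 1 ≤ k → k ≤ p - 1 → ¬ p ∣ k := fun k h1 h2 =>
    Nat.not_dvd_of_pos_of_lt (by omega) (by omega)
  have B1 : ∀ k : ℕ, ¬ p ∣ k → k • k₀ • P ∉ E0 v hK h2 hβ hκ := fun k hk => by
    rw [hkB]; exact M1 _ (hnd k hk)
  have B2 : ∀ k : ℕ, ¬ p ∣ k → v κ < v (ξ (k • k₀ • P)) := fun k hk => by
    rw [hkB]; exact M2 _ (hnd k hk)
  have B3 : ∀ k : ℕ, ¬ p ∣ k → v (ξ (k • k₀ • P)) < 1 := fun k hk => by
    rw [hkB]; exact M3 _ (hnd k hk)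
  have B4 : ∀ k : ℕ, ¬ p ∣ k → v (ξ (k • k₀ • P)) ≤ v (ξ (k₀ • P)) := fun k hk => by
    rw [hkB]; exact M4 _ (hnd k hk)
  generalize hBdef : k₀ • P = B at B1 B2 B3 B4 hkB
  have h11 : ¬ p ∣ 1 := hnd' 1 le_rfl (by omega)
  have ht_low : v κ < v (ξ B) := by
    have h := B2 1 h11
    rwa [one_nsmul] at h
  have ht1 : v (ξ B) < 1 := by
    have h := B3 1 h11
    rwa [one_nsmul] at h
  have hB0 : B ≠ 0 := fun h0 => B1 1 h11 (by rw [h0, smul_zero]; exact zero_mem _)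
  have hpB : p • B = 0 := by
    rw [hkB, mul_comm, mul_nsmul, hpP, smul_zero]
  let τ : ℕ → Γ₀ := fun k => if k = 0 then 1 else v (ξ (k • B))
  let W : ℕ → Γ₀ := fun k => v (ξ (k • B) * ξ B - κ)
  have hτ0 : τ 0 = 1 := if_pos rfl
  have hτ : ∀ k, k ≠ 0 → τ k = v (ξ (k • B)) := fun k hk => if_neg hk
  have hW : ∀ k, W k = v (ξ (k • B) * ξ B - κ) := fun k => rfl
  have key : v (ξ B) ^ (p - 1 + 1) = v κ ^ 2 := by
    refine fold_core (c := v κ) (t := v (ξ B)) (n := p - 1) τ W ((v.ne_zero_iff).mpr hκ0)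
      ht_low ht1 (by omega) hτ0 ?_ ?_ ?_ ?_ ?_ ?_
    · rw [hτ 1 one_ne_zero, one_nsmul]
    · rw [hτ _ (by omega)]
      have h1 : (p - 1) • B + B = 0 := by
        rw [← succ_nsmul, Nat.sub_add_cancel hp.one_le, hpB]
      rw [eq_neg_of_add_eq_zero_left h1, hK.neg]
    · intro k hk1 hk2
      rw [hτ k (by omega)]
      exact B2 k (hnd' k hk1 hk2)
    · intro k hk1 hk2
      rcases Nat.eq_or_lt_of_le hk1 with rfl | hk
      · have h2B : (2 : ℕ) • B ≠ 0 := fun h0 => B1 2 hp2 (by rw [h0]; exact zero_mem _)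
        have hdbl := congrArg v (hK.dbl B hB0 h2B)
        rw [v.map_mul, v.map_mul, v.map_pow] at hdbl
        have hC : v (4 * ξ B ^ 2 + β * ξ B + 4 * κ) = v (ξ B) := by
          have e1 : v (4 * ξ B ^ 2) < v (β * ξ B) := by
            rw [v.map_mul, v.map_pow, val_four v h2, one_mul, v.map_mul, hβ, one_mul]
            calc v (ξ B) ^ 2 = v (ξ B) * v (ξ B) := sq _
              _ < 1 * v (ξ B) := mul_lt_mul_of_pos_right ht1 (lt_of_le_of_lt zero_le ht_low)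
              _ = v (ξ B) := one_mul _
          have e2 : v (4 * ξ B ^ 2 + β * ξ B) = v (ξ B) := by
            rw [v.map_add_eq_of_lt_right e1, v.map_mul, hβ, one_mul]
          have e3 : v (4 * κ) < v (4 * ξ B ^ 2 + β * ξ B) := by
            rw [e2, v.map_mul, val_four v h2, one_mul]
            exact ht_low
          rw [v.map_add_eq_of_lt_left e3, e2]
        rw [hC] at hdbl
        rw [hτ (1 + 1) (by omega), show (1 - 1 : ℕ) = 0 from rfl, hτ0, mul_one, hW, one_nsmul,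
          ← sq (ξ B), sq (v (ξ B))]
        exact hdbl
      · have hkm : k - 1 ≠ 0 := by omega
        rw [hτ (k + 1) (by omega), hτ (k - 1) hkm, hW]
        have hk' : ¬ p ∣ k := hnd' k hk1 (by omega)
        have hkB0 : k • B ≠ 0 := fun h0 => B1 k hk' (by rw [h0]; exact zero_mem _)
        have hsub : k • B - B = (k - 1) • B := by
          obtain ⟨j, rfl⟩ : ∃ j, k = j + 1 := ⟨k - 1, by omega⟩
          rw [Nat.add_sub_cancel, succ_nsmul, add_sub_cancel_right]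
        have hadd' : k • B + B = (k + 1) • B := (succ_nsmul B k).symm
        have hlt : v (ξ (k • B)) < v (ξ B) := by
          refine lt_of_le_of_ne (B4 k hk') ?_
          intro heq
          rcases sub_or_add_mem_E0 v hK h2 hβ hκ hkB0 hB0 heq (B2 k hk') (B3 k hk') with h | h
          · rw [hsub] at h
            exact B1 (k - 1) (hnd' (k - 1) (by omega) (by omega)) h
          · rw [hadd'] at h
            exact B1 (k + 1) (hnd' (k + 1) (by omega) (by omega)) h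
        have hne : ξ (k • B) ≠ ξ B := fun h => hlt.ne (congrArg v h)
        have hmul := congrArg v (hK.mul (k • B) B hkB0 hB0 hne)
        rw [v.map_mul, v.map_mul, v.map_pow, v.map_pow, hadd', hsub,
          v.map_sub_eq_of_lt_right hlt] at hmul
        exact hmul
    · intro k hk1 hk2
      rw [hτ k (by omega), hW, ← v.map_mul]
      exact v.map_sub _ _
    · intro k hk1 hk2
      rw [hτ k (by omega), hW, ← v.map_mul]
      intro hne
      rw [sub_eq_add_neg, v.map_add_of_distinct_val (by rwa [v.map_neg]), v.map_neg]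
  rw [Nat.sub_add_cancel hp.one_le, ← hBdef] at key
  exact ⟨k₀, by omega, by omega, key⟩

end Val

end Fermat.Agent.S05Lib.Node
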