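import Mathlib
import Fermat.Prelude.Def_FLTPrelim_Ramification
import Fermat.Agent.S05Lib.Defs
import Fermat.Agent.S05Lib.Kummer
import Fermat.Agent.S05Lib.Inertia
import Fermat.Agent.S05Lib.E1
import Fermat.Agent.S05Lib.Node

/-!
# S05: inertia acts trivially on `p`-torsion (good and nodal cases)

For a Weierstrass curve `E` over `ℚ` with coefficients integral at a valuation ring `A` of an
extension `K`, a marked `2`-torsion abscissa `e`, and `σ` in the inertia group of `A`:

* `good_fixed`: if `κ` and `β² - 64 κ` are units, `σ` fixes every `p`-torsion point (`v p = 1`);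
* `node_fixed`: if `β` is a unit, `v κ = v(n)^p` with `v n < 1`, and a `σ`-fixed `r` with
  `v r = v(n)²` is given, `σ` fixes every `p`-torsion point (`v p = 1`, `p ≥ 3` prime).
-/

set_option autoImplicit false

namespace Fermat.Agent.S05Lib.Assembly

open WeierstrassCurve Fermat.Agent.S51Lib.Pts Fermat.Agent.S05Lib

variable {K : Type*} [Field K] [DecidableEq K] [Algebra ℚ K] (E : WeierstrassCurve ℚ)
  (A : ValuationSubring K)

/-- the Galois action fixes the point at infinity -/
theorem gal_smul_zero (σ : K ≃ₐ[ℚ] K) : σ • (0 : (E⁄K).toAffine.Point) = 0 := rfl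

/-- the Galois action is additive -/
theorem gal_smul_add (σ : K ≃ₐ[ℚ] K) (P Q : (E⁄K).toAffine.Point) :
    σ • (P + Q) = σ • P + σ • Q :=
  (Affine.Point.map (W' := E) σ.toAlgHom).map_add P Q

/-- the Galois action commutes with subtraction -/
theorem gal_smul_sub (σ : K ≃ₐ[ℚ] K) (P Q : (E⁄K).toAffine.Point) :
    σ • (P - Q) = σ • P - σ • Q :=
  (Affine.Point.map (W' := E) σ.toAlgHom).map_sub P Q

/-- the Galois action commutes with natural multiples -/
theorem gal_smul_nsmul (σ : K ≃ₐ[ℚ] K) (m : ℕ) (P : (E⁄K).toAffine.Point) :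
    σ • (m • P) = m • (σ • P) :=
  (Affine.Point.map (W' := E) σ.toAlgHom).map_nsmul m P

/-- a `p`-torsion point `Pt` with `σ Pt - Pt` in the kernel of reduction is fixed -/
theorem smul_eq_of_sub_mem_ker (σ : K ≃ₐ[ℚ] K) {e β κ : K}
    (hK : IsKummer (Kummer.xi (E⁄K) e) β κ) (h2 : A.valuation 2 = 1) (hβ : A.valuation β ≤ 1)
    (hκ : A.valuation κ ≤ 1) {p : ℕ} (hpv : A.valuation (p : K) = 1)
    {Pt : (E⁄K).toAffine.Point} (hpP : p • Pt = 0)
    (hmem : σ • Pt - Pt ∈ E1.ker A.valuation hK h2 hβ hκ) : σ • Pt = Pt := by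
  have h0 : p • (σ • Pt - Pt) = 0 := by
    rw [smul_sub, ← gal_smul_nsmul, hpP, gal_smul_zero, sub_zero]
  exact sub_eq_zero.1 (E1.eq_zero_of_mem_ker A.valuation hK h2 hβ hκ hpv hmem h0)

/-- **good reduction**: inertia fixes the `p`-torsion -/
theorem good_fixed {σ : K ≃ₐ[ℚ] K} (hσ : σ ∈ A.inertiaSubgroupIn ℚ)
    (ha₁ : (E⁄K).a₁ ∈ A) (ha₂ : (E⁄K).a₂ ∈ A) (ha₃ : (E⁄K).a₃ ∈ A) (ha₄ : (E⁄K).a₄ ∈ A)
    (ha₆ : (E⁄K).a₆ ∈ A) {e β κ : K} (he : e ∈ A)
    (h6 : B6 (E⁄K) e = 0) (hβ' : B2 (E⁄K) e = β) (hκ' : B4 (E⁄K) e = 2 * κ)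
    (h2 : A.valuation 2 = 1) (hβ : β ∈ A) (hκ : A.valuation κ = 1)
    (hdisc : A.valuation (β ^ 2 - 64 * κ) = 1)
    {p : ℕ} (hpv : A.valuation (p : K) = 1)
    (Pt : (E⁄K).toAffine.Point) (hpP : p • Pt = 0) : σ • Pt = Pt := by
  have h20 : (2 : K) ≠ 0 := by
    intro h0
    rw [h0, map_zero] at h2
    exact zero_ne_one h2
  have hK : IsKummer (Kummer.xi (E⁄K) e) β κ := Kummer.isKummer_xi (E⁄K) h20 e β κ h6 hβ' hκ'
  have hβv : A.valuation β ≤ 1 := (A.valuation_le_one_iff _).2 hβ
  have hκA : κ ∈ A := (A.valuation_le_one_iff _).1 hκ.le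
  rcases Pt with _ | ⟨x, y, h⟩
  · exact gal_smul_zero E σ
  · have hPt0 : (Affine.Point.some x y h : (E⁄K).toAffine.Point) ≠ 0 :=
      Affine.Point.some_ne_zero h
    by_cases hgt : 1 < A.valuation (x - e)
    · exfalso
      have hmem : (Affine.Point.some x y h : (E⁄K).toAffine.Point)
          ∈ E1.ker A.valuation hK h2 hβv hκ.le := Or.inr (by rw [Kummer.xi_some]; exact hgt)
      exact hPt0 (E1.eq_zero_of_mem_ker A.valuation hK h2 hβv hκ.le hpv hmem hpP)
    · have hξ : x - e ∈ A := (A.valuation_le_one_iff _).1 (not_lt.1 hgt)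
      have hx : x ∈ A := by
        have : x = (x - e) + e := by ring
        rw [this]; exact add_mem hξ he
      have H : A.valuation ((x - e) * (4 * (x - e) ^ 2 + β * (x - e) + 4 * κ)) < 1 →
          A.valuation ((x - e) ^ 2 - κ) = 1 := by
        intro h1
        by_contra hne
        have hle : A.valuation ((x - e) ^ 2 - κ) ≤ 1 :=
          (A.valuation_le_one_iff _).2 (sub_mem (pow_mem hξ 2) hκA)
        have hlt : A.valuation ((x - e) ^ 2 - κ) < 1 := lt_of_le_of_ne hle hne
        have e1 : κ * (β ^ 2 - 64 * κ)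
            = (β - 8 * (x - e)) * ((x - e) * (4 * (x - e) ^ 2 + β * (x - e) + 4 * κ))
              + (64 * κ - (β - 8 * (x - e)) * (4 * (x - e) + β)) * ((x - e) ^ 2 - κ) := by
          ring
        have hm1 : β - 8 * (x - e) ∈ A := by aesop
        have hm2 : 64 * κ - (β - 8 * (x - e)) * (4 * (x - e) + β) ∈ A := by aesop
        have h3 : A.valuation (κ * (β ^ 2 - 64 * κ)) < 1 := by
          rw [e1]
          apply Valuation.map_add_lt
          · rw [map_mul]
            exact mul_lt_one_of_nonneg_of_lt_one_right ((A.valuation_le_one_iff _).2 hm1)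
              zero_le h1
          · rw [map_mul]
            exact mul_lt_one_of_nonneg_of_lt_one_right ((A.valuation_le_one_iff _).2 hm2)
              zero_le hlt
        rw [map_mul, hκ, hdisc, one_mul] at h3
        exact lt_irrefl _ h3
      have hC := Inertia.smul_sub_mem E A hσ ha₁ ha₂ ha₃ ha₄ ha₆ he h6 hβ' hκ' h2 hβ hκA h hx H
      exact smul_eq_of_sub_mem_ker E A σ hK h2 hβv hκ.le hpv hpP hC

/-- **nodal reduction**: inertia fixes the `p`-torsion -/
theorem node_fixed {σ : K ≃ₐ[ℚ] K} (hσ : σ ∈ A.inertiaSubgroupIn ℚ)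
    (ha₁ : (E⁄K).a₁ ∈ A) (ha₂ : (E⁄K).a₂ ∈ A) (ha₃ : (E⁄K).a₃ ∈ A) (ha₄ : (E⁄K).a₄ ∈ A)
    (ha₆ : (E⁄K).a₆ ∈ A) {e β κ r n : K} (he : e ∈ A) (hσe : σ e = e) (hσr : σ r = r)
    (h6 : B6 (E⁄K) e = 0) (hβ' : B2 (E⁄K) e = β) (hκ' : B4 (E⁄K) e = 2 * κ)
    (h2 : A.valuation 2 = 1) (hβ : A.valuation β = 1)
    (hn0 : n ≠ 0) (hn1 : A.valuation n < 1)
    {p : ℕ} (hp : p.Prime) (hp3 : 3 ≤ p) (hpv : A.valuation (p : K) = 1)
    (hκv : A.valuation κ = A.valuation n ^ p) (hrv : A.valuation r = A.valuation n ^ 2)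
    (hR : ∃ y, (E⁄K).toAffine.Nonsingular (e + r) y)
    (Pt : (E⁄K).toAffine.Point) (hpP : p • Pt = 0) : σ • Pt = Pt := by
  have h20 : (2 : K) ≠ 0 := by
    intro h0
    rw [h0, map_zero] at h2
    exact zero_ne_one h2
  have hK : IsKummer (Kummer.xi (E⁄K) e) β κ := Kummer.isKummer_xi (E⁄K) h20 e β κ h6 hβ' hκ'
  have hνpos : 0 < A.valuation n := (Valuation.pos_iff _).2 hn0
  have hκ1 : A.valuation κ < 1 := by
    rw [hκv]; exact pow_lt_one₀ zero_le hn1 hp.ne_zero
  have hκ0 : κ ≠ 0 := by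
    intro h0
    rw [h0, map_zero] at hκv
    exact (pow_ne_zero p hνpos.ne') hκv.symm
  have hβA : β ∈ A := (A.valuation_le_one_iff _).1 hβ.le
  have hκA : κ ∈ A := (A.valuation_le_one_iff _).1 hκ1.le
  have hrlt : A.valuation r < 1 := by
    rw [hrv]; exact pow_lt_one₀ zero_le hn1 two_ne_zero
  have hκr : A.valuation κ < A.valuation r := by
    rw [hκv, hrv]
    exact pow_lt_pow_right_of_lt_one₀ hνpos hn1 (by omega)
  -- `σ D - D` lies in the kernel of reduction for every `D` in `E0`
  have key : ∀ D : (E⁄K).toAffine.Point, D ∈ Node.E0 A.valuation hK h2 hβ hκ1 →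
      σ • D - D ∈ E1.ker A.valuation hK h2 hβ.le hκ1.le := by
    rintro (_ | ⟨xD, yD, hD⟩) hDmem
    · left
      exact sub_eq_zero.2 (gal_smul_zero E σ)
    · rcases hDmem with h0 | h1
      · exact absurd h0 (Affine.Point.some_ne_zero hD)
      · rw [Kummer.xi_some] at h1
        rcases eq_or_lt_of_le h1 with heq1 | hgt1
        · have hξ : xD - e ∈ A := (A.valuation_le_one_iff _).1 heq1.symm.le
          have hx : xD ∈ A := by
            have : xD = (xD - e) + e := by ring
            rw [this]; exact add_mem hξ he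
          have H : A.valuation ((xD - e) * (4 * (xD - e) ^ 2 + β * (xD - e) + 4 * κ)) < 1 →
              A.valuation ((xD - e) ^ 2 - κ) = 1 := by
            intro _
            rw [Valuation.map_sub_eq_of_lt_left _ (by rw [map_pow, ← heq1, one_pow]; exact hκ1),
              map_pow, ← heq1, one_pow]
          exact Inertia.smul_sub_mem E A hσ ha₁ ha₂ ha₃ ha₄ ha₆ he h6 hβ' hκ' h2 hβA hκA hD hx H
        · have hDker : (Affine.Point.some xD yD hD : (E⁄K).toAffine.Point)
              ∈ E1.ker A.valuation hK h2 hβ.le hκ1.le :=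
            Or.inr (by rw [Kummer.xi_some]; exact hgt1)
          have hσDker : σ • (Affine.Point.some xD yD hD : (E⁄K).toAffine.Point)
              ∈ E1.ker A.valuation hK h2 hβ.le hκ1.le := by
            obtain ⟨hD', hσD⟩ := Inertia.smul_some E σ hD
            rw [hσD]
            right
            rw [Kummer.xi_some]
            have e1 : σ xD - e = σ (xD - e) := by rw [map_sub, hσe]
            rw [e1]
            by_contra hle
            have hmemA : σ (xD - e) ∈ A := (A.valuation_le_one_iff _).1 (not_lt.1 hle)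
            have hinv : σ⁻¹ ∈ A.inertiaSubgroupIn ℚ := inv_mem hσ
            have h3 := Inertia.mem_of_mem_inertia A hinv hmemA
            have e2 : σ⁻¹ (σ (xD - e)) = xD - e := σ.symm_apply_apply _
            rw [e2] at h3
            exact absurd ((A.valuation_le_one_iff _).2 h3) (not_le.2 hgt1)
          exact sub_mem hσDker hDker
  rcases Pt with _ | ⟨x, y, h⟩
  · exact gal_smul_zero E σ
  · have hPt0 : (Affine.Point.some x y h : (E⁄K).toAffine.Point) ≠ 0 :=
      Affine.Point.some_ne_zero h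
    rcases lt_trichotomy (A.valuation (x - e)) 1 with hlt | heq | hgt
    · -- the point reduces to the node
      have hnot : (Affine.Point.some x y h : (E⁄K).toAffine.Point)
          ∉ Node.E0 A.valuation hK h2 hβ hκ1 := by
        rintro (h0 | h1)
        · exact hPt0 h0
        · rw [Kummer.xi_some] at h1
          exact absurd hlt (not_lt.2 h1)
      obtain ⟨k, hk0, hkp, hkv⟩ :=
        Node.exists_nsmul_pow_eq A.valuation hK h2 hβ hκ1 hκ0 hp hp3 hpP hnot
      generalize hB : k • (Affine.Point.some x y h : (E⁄K).toAffine.Point) = B at hkv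
      have hBv : A.valuation (Kummer.xi (E⁄K) e B) = A.valuation r := by
        rw [hrv]
        have e1 : A.valuation (Kummer.xi (E⁄K) e B) ^ p = (A.valuation n ^ 2) ^ p := by
          rw [hkv, hκv, ← pow_mul, ← pow_mul, mul_comm]
        exact (pow_left_inj₀ zero_le zero_le hp.ne_zero).1 e1
      have hB0 : B ≠ 0 := by
        intro h0
        rw [h0, Kummer.xi_zero, map_zero] at hBv
        exact (lt_of_le_of_lt zero_le hκr).ne hBv
      obtain ⟨yR, hRns⟩ := hR
      have hR0 : (Affine.Point.some (e + r) yR hRns : (E⁄K).toAffine.Point) ≠ 0 :=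
        Affine.Point.some_ne_zero hRns
      have hRξ : Kummer.xi (E⁄K) e (Affine.Point.some (e + r) yR hRns) = r := by
        rw [Kummer.xi_some]; ring
      have hσR : σ • (Affine.Point.some (e + r) yR hRns : (E⁄K).toAffine.Point)
          = Affine.Point.some (e + r) yR hRns :=
        Inertia.smul_eq_self E A hσ h6 hβ' hκ' h2 hβ hRns (by rw [map_add, hσe, hσr]) hσe
          (by rw [add_sub_cancel_left]; exact hκr) (by rw [add_sub_cancel_left]; exact hrlt)
      have hB5 := Node.sub_or_add_mem_E0 A.valuation hK h2 hβ hκ1 hB0 hR0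
        (by rw [hBv, hRξ]) (by rw [hBv]; exact hκr) (by rw [hBv]; exact hrlt)
      have hσB : σ • B - B ∈ E1.ker A.valuation hK h2 hβ.le hκ1.le := by
        rcases hB5 with hD | hD
        · have h4 := key _ hD
          rwa [gal_smul_sub, hσR, sub_sub_sub_cancel_right] at h4
        · have h4 := key _ hD
          rwa [gal_smul_add, hσR, add_sub_add_right_eq_sub] at h4
      have hpB : p • B = 0 := by
        rw [← hB, smul_comm, hpP, smul_zero]
      have hσB' : σ • B = B :=
        smul_eq_of_sub_mem_ker E A σ hK h2 hβ.le hκ1.le hpv hpB hσB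
      have hkΔ : k • (σ • (Affine.Point.some x y h : (E⁄K).toAffine.Point)
          - Affine.Point.some x y h) = 0 := by
        rw [smul_sub, ← gal_smul_nsmul, hB, hσB', sub_self]
      have hpΔ : p • (σ • (Affine.Point.some x y h : (E⁄K).toAffine.Point)
          - Affine.Point.some x y h) = 0 := by
        rw [smul_sub, ← gal_smul_nsmul, hpP, gal_smul_zero, sub_zero]
      have hd1 := addOrderOf_dvd_of_nsmul_eq_zero hkΔ
      have hd2 := addOrderOf_dvd_of_nsmul_eq_zero hpΔ
      have hcop : Nat.Coprime k p := (Nat.coprime_of_lt_prime hk0.ne' hkp hp).symm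
      have hd3 : addOrderOf (σ • (Affine.Point.some x y h : (E⁄K).toAffine.Point)
          - Affine.Point.some x y h) ∣ 1 := by
        rw [← hcop]; exact Nat.dvd_gcd hd1 hd2
      exact sub_eq_zero.1 (AddMonoid.addOrderOf_eq_one_iff.1 (Nat.dvd_one.1 hd3))
    · -- the abscissa is a unit
      have hξ : x - e ∈ A := (A.valuation_le_one_iff _).1 heq.le
      have hx : x ∈ A := by
        have : x = (x - e) + e := by ring
        rw [this]; exact add_mem hξ he
      have H : A.valuation ((x - e) * (4 * (x - e) ^ 2 + β * (x - e) + 4 * κ)) < 1 →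
          A.valuation ((x - e) ^ 2 - κ) = 1 := by
        intro _
        rw [Valuation.map_sub_eq_of_lt_left _ (by rw [map_pow, heq, one_pow]; exact hκ1),
          map_pow, heq, one_pow]
      have hC := Inertia.smul_sub_mem E A hσ ha₁ ha₂ ha₃ ha₄ ha₆ he h6 hβ' hκ' h2 hβA hκA h hx H
      exact smul_eq_of_sub_mem_ker E A σ hK h2 hβ.le hκ1.le hpv hpP hC
    · exfalso
      have hmem : (Affine.Point.some x y h : (E⁄K).toAffine.Point)
          ∈ E1.ker A.valuation hK h2 hβ.le hκ1.le := Or.inr (by rw [Kummer.xi_some]; exact hgt)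
      exact hPt0 (E1.eq_zero_of_mem_ker A.valuation hK h2 hβ.le hκ1.le hpv hmem hpP)

end Fermat.Agent.S05Lib.Assembly
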